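import Fermat.Agent.S26.CURVE.BridgeDefs

/-!
# S26 / P12 CURVE leaf B1 (ALG, Mathlib + Prelude + FF/Val + FF/Exists only): a normal local
subring of a function field in one variable is a place (helper1756; exact skeleton signatures of
origin/helper736; helper lemmas in namespace `Fermat.Agent.S26.CURVE.B1`)

Proof: Mathlib `LocalSubring.eq_iInf_of_isIntegrallyClosedIn` (R = intersection of the
valuation subrings dominating it); each of them is a place (`FF.placeOf`) at which a fixed
non-unit `t ≠ 0` of `R` has a zero, so there are finitely many; if there were two, weak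
approximation (`FF.exists_approx_ord`) gives an element of `R` that is a unit at one and a
non-unit at the other, contradicting domination.
-/

set_option autoImplicit false

namespace Fermat.Agent.S26.CURVE

open AlgebraicCurve

variable {K F : Type*} [Field K] [Field F] [Algebra K F]

namespace B1

open Fermat.Agent.S26.FF

/-- Domination, elementwise: a non-unit of `O` stays a non-unit in a dominating valuation ring. -/
theorem inv_not_mem_of_dominates {O : LocalSubring F} {V : ValuationSubring F}
    (h : O ≤ V.toLocalSubring) {a : F} (ha : a ∈ O.toSubring) (hai : a⁻¹ ∉ O.toSubring)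
    (ha0 : a ≠ 0) : a⁻¹ ∉ V := by
  obtain ⟨hle, hloc⟩ := h
  intro hV
  have hu : IsUnit (Subring.inclusion hle ⟨a, ha⟩) := by
    refine IsUnit.of_mul_eq_one (⟨a⁻¹, hV⟩ : V.toLocalSubring.toSubring) ?_
    apply Subtype.ext
    show a * a⁻¹ = 1
    exact mul_inv_cancel₀ ha0
  have hu' : IsUnit (⟨a, ha⟩ : O.toSubring) := hloc.map_nonunit _ hu
  obtain ⟨b, hb⟩ := isUnit_iff_exists_inv.mp hu'
  have h1 : a * (b : F) = 1 := congrArg Subtype.val hb
  have h2 : (b : F) = a⁻¹ := eq_inv_of_mul_eq_one_right h1
  exact hai (h2 ▸ b.2)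

/-- An integrally closed local subring of a function field in one variable, containing the
constants and a nonzero non-unit `t`, is the valuation ring of a place. -/
theorem exists_place_eq_of_nonunit [IsFF1 K F]
    (hfin : ∀ t : F, Transcendental K t → {v : Place K F | 0 < v.ord t}.Finite)
    (O : Subring F) [IsLocalRing O]
    (hK : ∀ c : K, algebraMap K F c ∈ O)
    (hint : ∀ f : F, IsIntegral O f → f ∈ O)
    {t : F} (ht : t ∈ O) (ht0 : t ≠ 0) (hti : t⁻¹ ∉ O) :
    ∃ v : Place K F, v.toValuationSubring.toSubring = O := by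
  classical
  let R : LocalSubring F := ⟨O⟩
  have : IsIntegrallyClosedIn R.toSubring F := Subring.isIntegrallyClosedIn_iff.mpr hint
  have hO : O = ⨅ V : {V : ValuationSubring F // R ≤ V.toLocalSubring}, V.1.toSubring :=
    LocalSubring.eq_iInf_of_isIntegrallyClosedIn (R := R)
  have hVK : ∀ V : {V : ValuationSubring F // R ≤ V.toLocalSubring},
      ∀ c : K, algebraMap K F c ∈ V.1 := fun V c => V.2.1 (hK c)
  have hVt : ∀ V : {V : ValuationSubring F // R ≤ V.toLocalSubring}, t⁻¹ ∉ V.1 :=
    fun V => inv_not_mem_of_dominates V.2 ht hti ht0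
  have hVtop : ∀ V : {V : ValuationSubring F // R ≤ V.toLocalSubring}, V.1 ≠ ⊤ := by
    intro V h
    exact hVt V (h ▸ ValuationSubring.mem_top _)
  let pl : {V : ValuationSubring F // R ≤ V.toLocalSubring} → Place K F :=
    fun V => placeOf V.1 (hVK V) (hVtop V)
  have hord : ∀ V, 0 < (pl V).ord t := by
    intro V
    have h1 : ¬ (0 ≤ (pl V).ord t⁻¹) := fun h => hVt V (mem_of_ord_nonneg (pl V) h)
    rw [Place.ord_inv] at h1
    omega
  obtain ⟨V0, hV0⟩ := R.exists_le_valuationSubring
  let W0 : {V : ValuationSubring F // R ≤ V.toLocalSubring} := ⟨V0, hV0⟩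
  have htr : Transcendental K t := transcendental_of_ord_ne_zero (pl W0) (hord W0).ne'
  let S : Set (Place K F) := Set.range pl
  have hSfin : S.Finite := (hfin t htr).subset (by rintro _ ⟨V, rfl⟩; exact hord V)
  have huniq : ∀ V, pl V = pl W0 := by
    intro V
    by_contra hne
    have : Finite S := hSfin.to_subtype
    obtain ⟨z, hz⟩ := exists_approx_ord (fun s : S => (s : Place K F)) Subtype.val_injective
      (fun _ => 0) (fun s => if (s : Place K F) = pl W0 then 1 else 0)
    have hz' : ∀ s : S, z ≠ 0 ∧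
        (s : Place K F).ord z = if (s : Place K F) = pl W0 then 1 else 0 := by
      intro s
      simpa using hz s
    have hz0 : z ≠ 0 := (hz' ⟨pl W0, W0, rfl⟩).1
    have hzO : z ∈ O := by
      rw [hO]
      refine Subring.mem_iInf.mpr fun W => ?_
      have h5 := (hz' ⟨pl W, W, rfl⟩).2
      have h0 : 0 ≤ (pl W).ord z := by
        rw [h5]
        split_ifs <;> norm_num
      exact mem_of_ord_nonneg (pl W) h0
    have hzi : z⁻¹ ∉ O := by
      intro h
      have h1 : z⁻¹ ∈ (pl W0).toValuationSubring := W0.2.1 h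
      have h2 := ord_nonneg_of_mem (pl W0) h1
      have h5 := (hz' ⟨pl W0, W0, rfl⟩).2
      rw [if_pos rfl] at h5
      rw [Place.ord_inv, h5] at h2
      omega
    have h3 : z⁻¹ ∉ V.1 := inv_not_mem_of_dominates V.2 hzO hzi hz0
    have h4 := (hz' ⟨pl V, V, rfl⟩).2
    rw [if_neg hne] at h4
    apply h3
    have h6 : 0 ≤ (pl V).ord z⁻¹ := by
      rw [Place.ord_inv, h4]
      norm_num
    exact mem_of_ord_nonneg (pl V) h6
  refine ⟨pl W0, ?_⟩
  apply le_antisymm
  · intro x hx
    rw [hO]
    refine Subring.mem_iInf.mpr fun W => ?_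
    have h7 : (pl W).toValuationSubring = (pl W0).toValuationSubring := by rw [huniq W]
    have hx' : x ∈ (pl W).toValuationSubring := by
      rw [h7]
      exact hx
    exact hx'
  · exact W0.2.1

/-- A subring `O ≠ ⊤` of `F` with fraction field `F` has a nonzero non-unit. -/
theorem exists_nonunit_of_ne_top (O : Subring F)
    (hfrac : ∀ f : F, ∃ a ∈ O, ∃ b ∈ O, b ≠ 0 ∧ f = a / b) (hne : O ≠ ⊤) :
    ∃ t : F, t ∈ O ∧ t ≠ 0 ∧ t⁻¹ ∉ O := by
  by_contra hcon
  apply hne
  refine top_unique fun f _ => ?_
  obtain ⟨a, ha, b, hb, hb0, rfl⟩ := hfrac f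
  rw [div_eq_mul_inv]
  exact O.mul_mem ha (by_contra fun h => hcon ⟨b, hb, hb0, h⟩)

end B1

/-- A place is a maximal proper subring: two comparable places are equal. -/
theorem place_eq_of_le {v w : Place K F}
    (h : v.toValuationSubring ≤ w.toValuationSubring) : v = w :=
  Place.ext (ValuationSubring.eq_of_le_of_ne_top v.toValuationSubring h w.ne_top')

/-- A local subring `R ≠ ⊤` of `F` containing `K`, integrally closed in `F`, with fraction field
`F`, is the valuation ring of a place. -/
theorem exists_place_of_localSubring [FF.IsFF1 K F]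
    (hfin : ∀ t : F, Transcendental K t → {v : Place K F | 0 < v.ord t}.Finite)
    (R : Subring F) [IsLocalRing R] [IsIntegrallyClosedIn R F] [IsFractionRing R F]
    (hK : ∀ c : K, algebraMap K F c ∈ R) (hne : R ≠ ⊤) :
    ∃ v : Place K F, v.toValuationSubring.toSubring = R := by
  have hfrac : ∀ f : F, ∃ a ∈ R, ∃ b ∈ R, b ≠ 0 ∧ f = a / b := by
    intro f
    obtain ⟨a, b, hb, rfl⟩ := IsFractionRing.div_surjective (A := R) f
    refine ⟨a, a.2, b, b.2, ?_, rfl⟩
    intro h0
    exact nonZeroDivisors.ne_zero hb (Subtype.ext h0)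
  obtain ⟨t, ht, ht0, hti⟩ := B1.exists_nonunit_of_ne_top R hfrac hne
  exact B1.exists_place_eq_of_nonunit hfin R hK
    (fun f hf => Subring.isIntegrallyClosedIn_iff.mp inferInstance hf) ht ht0 hti

end Fermat.Agent.S26.CURVE
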