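import Fermat.Agent.S26.CURVE.BridgeDefs

/-!
# S26 / P12 CURVE leaf B2 (GEOM): valuative criterion, existence (helper736)

Mathlib `UniversallyClosed.eq_valuativeCriterion` gives a lift `Spec V ⟶ X` of the valuative
square (`Spec K(X) ⟶ X` the generic point, `Spec V ⟶ Spec K` from `K ⊆ V`); `x` := image of the
closed point, and `Scheme.stalkClosedPointTo` is a homomorphism `O_{X,x} ⟶ V` compatible with the
maps to the function field.
-/

set_option autoImplicit false

namespace Fermat.Agent.S26.CURVE

open AlgebraicGeometry AlgebraicCurve CategoryTheory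

universe u

variable {K : Type u} [Field K] {X : Scheme.{u}} [IsIntegral X]
  (s : X ⟶ Spec (CommRingCat.of K))

namespace B2

/-- The generic point as a morphism from the spectrum of the function field. -/
noncomputable def genericMap (X : Scheme.{u}) [IsIntegral X] :
    Spec (CommRingCat.of X.functionField) ⟶ X :=
  X.fromSpecStalk (genericPoint X)

theorem genericMap_comp :
    genericMap X ≫ s = Spec.map (CommRingCat.ofHom (constHom s)) := by
  apply ext_of_isAffine
  rw [← cancel_mono (Scheme.ΓSpecIso (CommRingCat.of X.functionField)).hom]
  rw [Scheme.ΓSpecIso_naturality]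
  rw [Scheme.Hom.comp_appTop, genericMap, Scheme.fromSpecStalk_appTop]
  ext c
  simp [constHom]

end B2

/-- Every valuation subring of the function field containing the constants contains the local
ring of some point (in fact it dominates it, but this is not needed). -/
theorem exists_point_le (hu : UniversallyClosed s) (V : ValuationSubring (FF s))
    (hK : ∀ c : K, algebraMap K (FF s) c ∈ V) :
    ∃ x : X, localRing X x ≤ V.toSubring := by
  have hex : ValuativeCriterion.Existence s := by
    have h := hu
    rw [UniversallyClosed.eq_valuativeCriterion] at h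
    exact h.1
  -- the valuation subring, transported to `X.functionField`
  let V' : ValuationSubring X.functionField := V
  let φ : K →+* V' := (constHom s).codRestrict V'.toSubring hK
  let i₂ : Spec (CommRingCat.of V') ⟶ Spec (CommRingCat.of K) :=
    Spec.map (CommRingCat.ofHom φ)
  have w : B2.genericMap X ≫ s =
      Spec.map (CommRingCat.ofHom (algebraMap V' X.functionField)) ≫ i₂ := by
    rw [B2.genericMap_comp, ← Spec.map_comp]
    rfl
  obtain ⟨l, hl₁, hl₂⟩ :=
    (hex { R := V', K := X.functionField, i₁ := B2.genericMap X, i₂ := i₂,
           commSq := ⟨w⟩ }).exists_lift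
  dsimp only at hl₁ hl₂
  refine ⟨l (IsLocalRing.closedPoint V'), ?_⟩
  have hη : genericPoint X ⤳ l (IsLocalRing.closedPoint V') :=
    (genericPoint_spec X).specializes trivial
  have key : Scheme.stalkClosedPointTo l ≫ CommRingCat.ofHom (algebraMap V' X.functionField) =
      X.presheaf.stalkSpecializes hη := by
    apply Spec.map_injective
    rw [← cancel_mono (X.fromSpecStalk (l (IsLocalRing.closedPoint V')))]
    rw [Scheme.SpecMap_stalkSpecializes_fromSpecStalk, Spec.map_comp, Category.assoc,
      Scheme.Spec_stalkClosedPointTo_fromSpecStalk, hl₁]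
    rfl
  rintro f ⟨a, rfl⟩
  have h2 := congrArg (fun ψ => ψ.hom a) key
  simp only [CommRingCat.hom_comp, RingHom.comp_apply] at h2
  have h3 : algebraMap (X.presheaf.stalk (l (IsLocalRing.closedPoint V'))) X.functionField a =
      (X.presheaf.stalkSpecializes hη).hom a := rfl
  rw [h3, ← h2]
  exact ((Scheme.stalkClosedPointTo l).hom a).2

end Fermat.Agent.S26.CURVE
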