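import Fermat.Agent.S26.CURVE.BridgeDefs

/-!
# S26 / P12 CURVE leaf B3 (GEOM): valuative criterion, uniqueness (helper736)

Mathlib `IsSeparated.valuativeCriterion`: the two morphisms `Spec V ≅ Spec O_{X,x} ⟶ X` and
`Spec V ≅ Spec O_{X,y} ⟶ X` agree on the generic point and over `Spec K`, hence are equal;
compare the images of the closed point.
-/

set_option autoImplicit false

namespace Fermat.Agent.S26.CURVE

open AlgebraicGeometry AlgebraicCurve CategoryTheory

universe u

variable {K : Type u} [Field K] {X : Scheme.{u}} [IsIntegral X]
  (s : X ⟶ Spec (CommRingCat.of K))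

namespace B3

/-- The generic point as a morphism from the spectrum of the function field. -/
noncomputable def genericMap (X : Scheme.{u}) [IsIntegral X] :
    Spec (CommRingCat.of X.functionField) ⟶ X :=
  X.fromSpecStalk (genericPoint X)

variable (V : ValuationSubring X.functionField)

/-- The map from the stalk at `x` to `V` when `localRing X x ≤ V`. -/
noncomputable def toV {x : X} (hx : localRing X x ≤ V.toSubring) : X.presheaf.stalk x →+* V :=
  (algebraMap (X.presheaf.stalk x) X.functionField).codRestrict V.toSubring
    (fun a => hx ⟨a, rfl⟩)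

theorem isLocalHom_toV {x : X} (hx : localRing X x = V.toSubring) :
    IsLocalHom (toV V hx.le) := by
  refine ⟨fun a ha => ?_⟩
  obtain ⟨b, hb⟩ := ha.exists_right_inv
  have hbm : (b : X.functionField) ∈ localRing X x := by rw [hx]; exact b.2
  obtain ⟨a', ha'⟩ := hbm
  have h1 : algebraMap (X.presheaf.stalk x) X.functionField (a * a') = 1 := by
    rw [map_mul, ha']
    exact congrArg Subtype.val hb
  have h2 : a * a' = 1 :=
    IsFractionRing.injective (X.presheaf.stalk x) X.functionField (by rw [h1, map_one])
  exact IsUnit.of_mul_eq_one _ h2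

/-- The morphism `Spec V ⟶ X` attached to a point whose local ring is contained in `V`. -/
noncomputable def specV {x : X} (hx : localRing X x ≤ V.toSubring) :
    Spec (CommRingCat.of V) ⟶ X :=
  Spec.map (CommRingCat.ofHom (toV V hx)) ≫ X.fromSpecStalk x

theorem generic_specV {x : X} (hx : localRing X x ≤ V.toSubring) :
    Spec.map (CommRingCat.ofHom (algebraMap V X.functionField)) ≫ specV V hx = genericMap X := by
  have hη : genericPoint X ⤳ x := (genericPoint_spec X).specializes trivial
  rw [specV, ← Spec.map_comp_assoc, genericMap, ← Scheme.SpecMap_stalkSpecializes_fromSpecStalk hη]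
  rfl

theorem specV_closedPoint {x : X} (hx : localRing X x = V.toSubring) :
    specV V hx.le (IsLocalRing.closedPoint V) = x := by
  have : IsLocalHom (CommRingCat.ofHom (toV V hx.le)).hom := isLocalHom_toV V hx
  change X.fromSpecStalk x (Spec.map (CommRingCat.ofHom (toV V hx.le))
    (IsLocalRing.closedPoint (CommRingCat.of V))) = x
  rw [Spec_closedPoint, Scheme.fromSpecStalk_closedPoint]

end B3

/-- Two points whose local rings are the same valuation subring of the function field are
equal. -/
theorem eq_of_localRing_eq (hsep : IsSeparated s) (V : ValuationSubring (FF s)) {x y : X}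
    (hx : localRing X x = V.toSubring) (hy : localRing X y = V.toSubring) : x = y := by
  have huniq : ValuativeCriterion.Uniqueness s := IsSeparated.valuativeCriterion s
  let V' : ValuationSubring X.functionField := V
  have hx' : localRing X x = V'.toSubring := hx
  have hy' : localRing X y = V'.toSubring := hy
  let lx := B3.specV V' hx'.le
  let ly := B3.specV V' hy'.le
  have w : B3.genericMap X ≫ s =
      Spec.map (CommRingCat.ofHom (algebraMap V' X.functionField)) ≫ (lx ≫ s) := by
    rw [← Category.assoc, B3.generic_specV]
  -- `ly ≫ s = lx ≫ s`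
  have hxy : ly ≫ s = lx ≫ s := by
    rw [← Spec.map_preimage (ly ≫ s), ← Spec.map_preimage (lx ≫ s)]
    congr 1
    have h1 : Spec.preimage (ly ≫ s) ≫ CommRingCat.ofHom (algebraMap V' X.functionField) =
        Spec.preimage (lx ≫ s) ≫ CommRingCat.ofHom (algebraMap V' X.functionField) := by
      apply Spec.map_injective
      rw [Spec.map_comp, Spec.map_comp, Spec.map_preimage, Spec.map_preimage, ← Category.assoc,
        ← Category.assoc, B3.generic_specV, B3.generic_specV]
    ext c
    have h2 := congrArg (fun ψ => ψ.hom c) h1
    simp only [CommRingCat.hom_comp, RingHom.comp_apply] at h2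
    exact h2
  let S : ValuativeCommSq s :=
    { R := V', K := X.functionField, i₁ := B3.genericMap X, i₂ := lx ≫ s, commSq := ⟨w⟩ }
  have hsub : Subsingleton S.commSq.LiftStruct := huniq S
  let L₁ : S.commSq.LiftStruct := ⟨lx, B3.generic_specV V' hx'.le, rfl⟩
  let L₂ : S.commSq.LiftStruct := ⟨ly, B3.generic_specV V' hy'.le, hxy⟩
  have h12 : L₁ = L₂ := Subsingleton.elim _ _
  have hl : lx = ly := congrArg CommSq.LiftStruct.l h12
  rw [← B3.specV_closedPoint V' hx', ← B3.specV_closedPoint V' hy']
  exact congrArg (fun l : Spec (CommRingCat.of V') ⟶ X => l (IsLocalRing.closedPoint V')) hl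

end Fermat.Agent.S26.CURVE
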