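import Fermat.Agent.S26.CURVE.B0_LocalRing
import Fermat.Agent.S26.CURVE.B1_LocalSubring
import Fermat.Agent.S26.CURVE.B2_Surj
import Fermat.Agent.S26.CURVE.B3_Inj

/-!
# S26 / P12 CURVE leaf B4 (glue): non-generic points of a normal complete curve <-> places
(helper736; proved from the leaves B0-B3)
-/

set_option autoImplicit false

namespace Fermat.Agent.S26.CURVE

open AlgebraicGeometry AlgebraicCurve CategoryTheory

universe u

variable {K : Type u} [Field K] {X : Scheme.{u}} [IsIntegral X]
  (s : X ⟶ Spec (CommRingCat.of K))

/-- The local ring at a non-generic point is the valuation ring of a place. -/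
theorem exists_place_localRing (hC : IsCompleteCurve s) {x : X} (hx : x ≠ genericPoint X) :
    ∃ v : Place K (FF s), v.toValuationSubring.toSubring = localRing X x := by
  exact @exists_place_of_localSubring K (FF s) _ _ _ hC.ff1 hC.finite_zeros (localRing X x)
    (isLocalRing_localRing x) (isIntegrallyClosedIn_localRing x (hC.normal x))
    (isFractionRing_localRing x) (fun c => constHom_mem_localRing s c x) (localRing_ne_top hx)

/-- Every place is the local ring of a point. -/
theorem exists_point_of_place (hC : IsCompleteCurve s) (v : Place K (FF s)) :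
    ∃ x : X, localRing X x = v.toValuationSubring.toSubring := by
  obtain ⟨x, hx⟩ := exists_point_le s hC.univClosed v.toValuationSubring v.algebraMap_mem'
  have hxg : x ≠ genericPoint X := by
    rintro rfl
    rw [localRing_genericPoint] at hx
    apply v.ne_top'
    refine SetLike.ext fun f => ⟨fun _ => ValuationSubring.mem_top f, fun _ => ?_⟩
    exact hx (Subring.mem_top _)
  obtain ⟨w, hw⟩ := exists_place_localRing s hC hxg
  have hle : w.toValuationSubring ≤ v.toValuationSubring := by
    intro f hf
    have : f ∈ w.toValuationSubring.toSubring := hf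
    rw [hw] at this
    exact hx this
  have := place_eq_of_le hle
  subst this
  exact ⟨x, hw.symm⟩

theorem localRing_ptOf (hC : IsCompleteCurve s) (v : Place K (FF s)) :
    localRing X (ptOf s v) = v.toValuationSubring.toSubring := by
  have h := exists_point_of_place s hC v
  unfold ptOf
  rw [dif_pos h]
  exact h.choose_spec

theorem ptOf_ne_genericPoint (hC : IsCompleteCurve s) (v : Place K (FF s)) :
    ptOf s v ≠ genericPoint X := by
  intro h
  have h1 := localRing_ptOf s hC v
  rw [h, localRing_genericPoint] at h1
  apply v.ne_top'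
  refine SetLike.ext fun f => ⟨fun _ => ValuationSubring.mem_top f, fun _ => ?_⟩
  have : f ∈ v.toValuationSubring.toSubring := by rw [← h1]; exact Subring.mem_top _
  exact this

theorem ptOf_injective (hC : IsCompleteCurve s) : Function.Injective (ptOf s) := by
  intro v w h
  have h1 := localRing_ptOf s hC v
  have h2 := localRing_ptOf s hC w
  rw [h] at h1
  apply Place.ext
  apply ValuationSubring.toSubring_injective
  rw [← h1, ← h2]

theorem exists_ptOf_eq (hC : IsCompleteCurve s) {x : X} (hx : x ≠ genericPoint X) :
    ∃ v : Place K (FF s), ptOf s v = x := by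
  obtain ⟨v, hv⟩ := exists_place_localRing s hC hx
  exact ⟨v, eq_of_localRing_eq s hC.separated v.toValuationSubring (localRing_ptOf s hC v) hv.symm⟩

/-- Non-generic points are closed. -/
theorem isClosed_singleton_of_ne_genericPoint (hC : IsCompleteCurve s) {x : X}
    (hx : x ≠ genericPoint X) : IsClosed ({x} : Set X) := by
  rw [← closure_subset_iff_isClosed]
  intro y hy
  have hxy : x ⤳ y := specializes_iff_mem_closure.mpr hy
  have hle := localRing_le_of_specializes hxy
  have hyg : y ≠ genericPoint X := by
    rintro rfl
    exact hx ((hxy.antisymm ((genericPoint_spec X).specializes trivial)).eq)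
  obtain ⟨v, hv⟩ := exists_place_localRing s hC hx
  obtain ⟨w, hw⟩ := exists_place_localRing s hC hyg
  have hwv : w.toValuationSubring ≤ v.toValuationSubring := by
    intro f hf
    have h1 : f ∈ w.toValuationSubring.toSubring := hf
    rw [hw] at h1
    have h2 := hle h1
    rw [← hv] at h2
    exact h2
  have := place_eq_of_le hwv
  subst this
  exact eq_of_localRing_eq s hC.separated w.toValuationSubring hw.symm hv.symm

theorem mem_localRing_ptOf_iff (hC : IsCompleteCurve s) (v : Place K (FF s))
    (f : X.functionField) : f ∈ localRing X (ptOf s v) ↔ 0 ≤ v.ord (f : FF s) := by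
  rw [localRing_ptOf s hC v]
  exact FF.mem_iff_ord_nonneg v

theorem isUnitAt_ptOf_iff (hC : IsCompleteCurve s) (v : Place K (FF s))
    (f : X.functionField) : IsUnitAt (ptOf s v) f ↔ v.ord (f : FF s) = 0 := by
  unfold IsUnitAt
  rw [mem_localRing_ptOf_iff s hC v, mem_localRing_ptOf_iff s hC v]
  have h := v.ord_inv (f : FF s)
  constructor
  · rintro ⟨h1, h2⟩
    have h2' : 0 ≤ v.ord ((f : FF s)⁻¹) := h2
    rw [h] at h2'
    omega
  · intro h0
    refine ⟨by omega, ?_⟩
    show 0 ≤ v.ord ((f : FF s)⁻¹)
    rw [h]; omega

end Fermat.Agent.S26.CURVE
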