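import Fermat.Agent.S26.CURVE.B4_Points

/-!
# S26 / P12 CURVE leaf B5a (topology + glue): finiteness of the support of a Cartier family
(helper8924; skeleton statements of helper736 unchanged; helper lemmas in namespace
`Fermat.Agent.S26.CURVE.B5a`)

`D y / D η` is a unit at all `y` in an open neighbourhood `U` of the generic point `η`; a closed
set not containing `η` is finite (cover `X` by finitely many affine opens `Spec A`; a nonzero
`a ∈ A` vanishing on the closed set has finitely many zeros, `IsCompleteCurve.finite_zeros`, and
the points ↔ places dictionary of B4; `a` is transcendental because it has a zero, or the closed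
set is empty); `D η` has finitely many zeros and poles.
-/

set_option autoImplicit false

namespace Fermat.Agent.S26.CURVE

open AlgebraicGeometry AlgebraicCurve CategoryTheory

universe u

variable {K : Type u} [Field K] {X : Scheme.{u}} [IsIntegral X]
  (s : X ⟶ Spec (CommRingCat.of K))

namespace B5a

/-- Any function has finitely many zeros (algebraic functions have none). -/
theorem finite_zeros (hC : IsCompleteCurve s) (f : FF s) :
    {v : Place K (FF s) | 0 < v.ord f}.Finite := by
  by_cases hf : Transcendental K f
  · exact hC.finite_zeros f hf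
  · have halg : IsAlgebraic K f := by
      unfold Transcendental at hf
      exact not_not.mp hf
    have hempty : {v : Place K (FF s) | 0 < v.ord f} = ∅ := by
      ext v
      simp [FF.ord_eq_zero_of_isAlgebraic v halg]
    rw [hempty]
    exact Set.finite_empty

/-- Any function has finitely many zeros and poles. -/
theorem finite_ord_ne_zero (hC : IsCompleteCurve s) (f : FF s) :
    {v : Place K (FF s) | v.ord f ≠ 0}.Finite := by
  refine ((finite_zeros s hC f).union (finite_zeros s hC f⁻¹)).subset ?_
  intro v hv
  have hv' : v.ord f ≠ 0 := hv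
  have h3 := v.ord_inv f
  rcases lt_or_gt_of_ne hv' with h | h
  · right
    show 0 < v.ord f⁻¹
    omega
  · left
    exact h

/-- The germ in the function field of a section over `U` is regular at the points of `U`. -/
theorem germ_mem_localRing {U : X.Opens} [Nonempty U] (a : Γ(X, U)) {x : X} (hx : x ∈ U) :
    X.germToFunctionField U a ∈ localRing X x :=
  ⟨X.presheaf.germ U x hx a, Scheme.algebraMap_germ_eq_germToFunctionField X hx a⟩

/-- A nonzero section over `U` vanishing at `x ∈ U` is not invertible in the local ring at `x`. -/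
theorem inv_germ_notMem_localRing {U : X.Opens} [Nonempty U] (a : Γ(X, U)) {x : X} (hx : x ∈ U)
    (h0 : X.germToFunctionField U a ≠ 0) (hxa : x ∉ X.basicOpen a) :
    (X.germToFunctionField U a)⁻¹ ∉ localRing X x := by
  rintro ⟨g, hg⟩
  apply hxa
  rw [Scheme.mem_basicOpen X a x hx]
  have hinj : Function.Injective (algebraMap (X.presheaf.stalk x) X.functionField) :=
    IsFractionRing.injective _ _
  have h1 : algebraMap (X.presheaf.stalk x) X.functionField (X.presheaf.germ U x hx a * g) =
      algebraMap (X.presheaf.stalk x) X.functionField 1 := by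
    rw [map_mul, map_one, Scheme.algebraMap_germ_eq_germToFunctionField X hx a]
    have hg' : algebraMap (X.presheaf.stalk x) X.functionField g =
        (X.germToFunctionField U a)⁻¹ := hg
    rw [hg']
    exact mul_inv_cancel₀ h0
  exact IsUnit.of_mul_eq_one _ (hinj h1)

/-- The part of a closed set avoiding the generic point inside an affine open is finite. -/
theorem finite_inter_of_isAffineOpen (hC : IsCompleteCurve s) {Z : Set X} (hZ : IsClosed Z)
    (hη : genericPoint X ∉ Z) {U : X.Opens} (hU : IsAffineOpen U) :
    (Z ∩ (U : Set X)).Finite := by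
  by_cases hne : Nonempty U
  swap
  · have hempty : Z ∩ (U : Set X) = ∅ := by
      rw [Set.eq_empty_iff_forall_notMem]
      rintro x ⟨-, hx⟩
      exact hne ⟨⟨x, hx⟩⟩
    rw [hempty]
    exact Set.finite_empty
  have hηU : genericPoint X ∈ U :=
    ((genericPoint_spec X).mem_open_set_iff U.isOpen).mpr (by simpa using hne)
  let W : X.Opens := ⟨Zᶜ, hZ.isOpen_compl⟩
  obtain ⟨a, haW, hηa⟩ := hU.exists_basicOpen_le (V := W) ⟨genericPoint X, hη⟩ hηU
  have hf0 : X.germToFunctionField U a ≠ 0 :=
    ((Scheme.mem_basicOpen X a (genericPoint X) hηU).mp hηa).ne_zero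
  refine ((finite_zeros s hC (X.germToFunctionField U a : FF s)).image (ptOf s)).subset ?_
  rintro x ⟨hxZ, hxU⟩
  have hxg : x ≠ genericPoint X := fun h => hη (h ▸ hxZ)
  obtain ⟨v, rfl⟩ := exists_ptOf_eq s hC hxg
  refine ⟨v, ?_, rfl⟩
  have hxa : ptOf s v ∉ X.basicOpen a := fun h => haW h hxZ
  have h1 : X.germToFunctionField U a ∈ localRing X (ptOf s v) := germ_mem_localRing a hxU
  have h2 : (X.germToFunctionField U a)⁻¹ ∉ localRing X (ptOf s v) :=
    inv_germ_notMem_localRing a hxU hf0 hxa
  rw [mem_localRing_ptOf_iff s hC] at h1 h2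
  have h3 := v.ord_inv (X.germToFunctionField U a : FF s)
  have h2' : ¬ 0 ≤ v.ord ((X.germToFunctionField U a : FF s)⁻¹) := h2
  rw [h3] at h2'
  show 0 < v.ord (X.germToFunctionField U a : FF s)
  omega

/-- `ord` of a quotient of units. -/
theorem ord_units_div (v : Place K (FF s)) (a b : (X.functionField)ˣ) :
    v.ord ((((a / b : (X.functionField)ˣ)) : X.functionField) : FF s) =
      v.ord ((a : X.functionField) : FF s) - v.ord ((b : X.functionField) : FF s) := by
  have key : ∀ p q : FF s, p ≠ 0 → q ≠ 0 → v.ord (p / q) = v.ord p - v.ord q := by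
    intro p q hp hq
    rw [div_eq_mul_inv, v.ord_mul hp (inv_ne_zero hq), v.ord_inv]
    ring
  have h1 : (((a / b : (X.functionField)ˣ)) : X.functionField) =
      (a : X.functionField) / (b : X.functionField) := Units.val_div_eq_div_val a b
  rw [h1]
  exact key _ _ a.ne_zero b.ne_zero

end B5a

/-- A closed subset of a normal complete curve not containing the generic point is finite. -/
theorem finite_of_isClosed (hC : IsCompleteCurve s) {Z : Set X} (hZ : IsClosed Z)
    (hη : genericPoint X ∉ Z) : Z.Finite := by
  have := hC.univClosed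
  have hcomp : CompactSpace X := QuasiCompact.compactSpace_of_compactSpace s
  have key : (Z ∩ Set.univ).Finite := by
    refine isCompact_univ.induction_on (p := fun S => (Z ∩ S).Finite) (by simp) ?_ ?_ ?_
    · intro S T hST hT
      exact hT.subset (Set.inter_subset_inter_right _ hST)
    · intro S T hS hT
      rw [Set.inter_union_distrib_left]
      exact hS.union hT
    · intro x _
      obtain ⟨_, ⟨U, hU, rfl⟩, hxU, -⟩ :=
        X.isBasis_affineOpens.exists_subset_of_mem_open (Set.mem_univ x) isOpen_univ
      exact ⟨U, mem_nhdsWithin_of_mem_nhds (U.isOpen.mem_nhds hxU),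
        B5a.finite_inter_of_isAffineOpen s hC hZ hη hU⟩
  simpa using key

theorem finite_support_ordFam (hC : IsCompleteCurve s) {D : Fam X} (hD : D.IsCartier) :
    (Function.support (ordFam s D)).Finite := by
  obtain ⟨U, hηU, hU⟩ := hD (genericPoint X)
  have hZ : ((U : Set X)ᶜ).Finite :=
    finite_of_isClosed s hC U.isOpen.isClosed_compl (fun h => h hηU)
  have h1 : {v : Place K (FF s) | ptOf s v ∈ (U : Set X)ᶜ}.Finite :=
    hZ.preimage (ptOf_injective s hC).injOn
  have h2 := B5a.finite_ord_ne_zero s hC
    (((D (genericPoint X) : (X.functionField)ˣ) : X.functionField) : FF s)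
  refine (h1.union h2).subset ?_
  intro v hv
  by_cases hvU : ptOf s v ∈ U
  · right
    have hu := hU _ hvU
    rw [isUnitAt_ptOf_iff s hC, B5a.ord_units_div] at hu
    have hv' : ordFam s D v ≠ 0 := hv
    unfold ordFam at hv'
    show v.ord (((D (genericPoint X) : (X.functionField)ˣ) : X.functionField) : FF s) ≠ 0
    omega
  · left
    exact hvU

theorem toDiv_apply (hC : IsCompleteCurve s) {D : Fam X} (hD : D.IsCartier)
    (v : Place K (FF s)) : toDiv s D v = ordFam s D v := by
  unfold toDiv
  rw [dif_pos (finite_support_ordFam s hC hD)]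
  rfl

end Fermat.Agent.S26.CURVE
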