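import Fermat.Agent.S26.CURVE.B5b_Dict

/-!
# S26 / P12 CURVE leaf B5c (glue): every prelude divisor is the divisor of a Cartier family
(helper8924; skeleton statement of helper736 unchanged; helper lemmas in namespace
`Fermat.Agent.S26.CURVE.B5c`)

Take `D x := t_x ^ (A v_x)` with `t_x` a uniformizer of the place `v_x` of `x` (`D η := 1`);
`D` is Cartier because non-generic points are closed (B4), `t_x` has finitely many zeros and poles
(B5a) and `A` has finite support.
-/

set_option autoImplicit false

namespace Fermat.Agent.S26.CURVE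

open AlgebraicGeometry AlgebraicCurve CategoryTheory

universe u

variable {K : Type u} [Field K] {X : Scheme.{u}} [IsIntegral X]
  (s : X ⟶ Spec (CommRingCat.of K))

namespace B5c

theorem exists_unit_uniformizer (v : Place K (FF s)) :
    ∃ t : (X.functionField)ˣ, v.ord ((t : X.functionField) : FF s) = 1 := by
  obtain ⟨t, ht0, ht⟩ := FF.exists_ord_eq v 1
  exact ⟨Units.mk0 (t : X.functionField) ht0, ht⟩

/-- A uniformizer at the place `v`, as a unit of the function field. -/
noncomputable def unif (v : Place K (FF s)) : (X.functionField)ˣ :=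
  (exists_unit_uniformizer s v).choose

theorem ord_unif (v : Place K (FF s)) :
    v.ord (((unif s v : (X.functionField)ˣ) : X.functionField) : FF s) = 1 :=
  (exists_unit_uniformizer s v).choose_spec

/-- The family of local equations `x ↦ t_x ^ (A v_x)` attached to a divisor `A`. -/
noncomputable def fam (A : Divisor K (FF s)) : Fam X := fun x =>
  open Classical in
  if h : ∃ v : Place K (FF s), ptOf s v = x then unif s h.choose ^ (A h.choose) else 1

theorem fam_ptOf (hC : IsCompleteCurve s) (A : Divisor K (FF s)) (v : Place K (FF s)) :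
    fam s A (ptOf s v) = unif s v ^ (A v) := by
  have h : ∃ w : Place K (FF s), ptOf s w = ptOf s v := ⟨v, rfl⟩
  have hw : h.choose = v := ptOf_injective s hC h.choose_spec
  unfold fam
  rw [dif_pos h, hw]

theorem ord_fam (hC : IsCompleteCurve s) (A : Divisor K (FF s)) (v : Place K (FF s)) :
    v.ord (((fam s A (ptOf s v) : (X.functionField)ˣ) : X.functionField) : FF s) = A v := by
  rw [fam_ptOf s hC A v, Units.val_zpow_eq_zpow_val]
  have key : ∀ (p : FF s) (n : ℤ), v.ord (p ^ n) = n * v.ord p := fun p n => v.ord_zpow p n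
  have h1 := key (((unif s v : (X.functionField)ˣ) : X.functionField) : FF s) (A v)
  rw [ord_unif s v, mul_one] at h1
  exact h1

/-- A finite set of non-generic points is closed. -/
theorem isClosed_of_finite (hC : IsCompleteCurve s) {S : Set X} (hS : S.Finite)
    (hg : ∀ y ∈ S, y ≠ genericPoint X) : IsClosed S := by
  have h := hS.isClosed_biUnion (f := fun y => ({y} : Set X))
    (fun y hy => isClosed_singleton_of_ne_genericPoint s hC (hg y hy))
  rwa [Set.biUnion_of_singleton] at h

theorem isCartier_fam (hC : IsCompleteCurve s) (A : Divisor K (FF s)) :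
    (fam s A).IsCartier := by
  intro x
  -- the bad set
  have hfinA : (↑A.support : Set (Place K (FF s))).Finite := A.support.finite_toSet
  have hfinx := B5a.finite_ord_ne_zero s hC
    (((fam s A x : (X.functionField)ˣ) : X.functionField) : FF s)
  set B : Set X := ptOf s '' ((↑A.support : Set (Place K (FF s))) ∪
    {v : Place K (FF s) |
      v.ord (((fam s A x : (X.functionField)ˣ) : X.functionField) : FF s) ≠ 0}) \ {x} with hB
  have hBfin : B.Finite := ((hfinA.union hfinx).image (ptOf s)).sdiff
  have hBg : ∀ y ∈ B, y ≠ genericPoint X := by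
    rintro y ⟨⟨v, -, rfl⟩, -⟩
    exact ptOf_ne_genericPoint s hC v
  have hBcl : IsClosed B := isClosed_of_finite s hC hBfin hBg
  refine ⟨⟨Bᶜ, hBcl.isOpen_compl⟩, fun h => h.2 rfl, fun y hy => ?_⟩
  by_cases hyg : y = genericPoint X
  · subst hyg
    exact B5b.isUnitAt_genericPoint _
  by_cases hyx : y = x
  · subst hyx
    have e : ((fam s A y / fam s A y : (X.functionField)ˣ) : X.functionField) = 1 := by
      rw [div_self', Units.val_one]
    rw [e]
    exact B5b.isUnitAt_one y
  obtain ⟨w, rfl⟩ := exists_ptOf_eq s hC hyg
  have hw : w ∉ (↑A.support : Set (Place K (FF s))) ∪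
      {v : Place K (FF s) |
        v.ord (((fam s A x : (X.functionField)ˣ) : X.functionField) : FF s) ≠ 0} := by
    intro hmem
    exact hy ⟨⟨w, hmem, rfl⟩, hyx⟩
  rw [Set.mem_union, not_or] at hw
  have hw1 : A w = 0 := by
    have := hw.1
    rw [Finset.mem_coe, Finsupp.mem_support_iff, not_not] at this
    exact this
  have hw2 : w.ord (((fam s A x : (X.functionField)ˣ) : X.functionField) : FF s) = 0 :=
    not_not.mp hw.2
  rw [isUnitAt_ptOf_iff s hC, B5a.ord_units_div, ord_fam s hC A w, hw1, hw2]
  rfl

end B5c

/-- Every divisor of the function field comes from a Cartier family. -/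
theorem exists_fam_toDiv (hC : IsCompleteCurve s) (A : Divisor K (FF s)) :
    ∃ D : Fam X, D.IsCartier ∧ toDiv s D = A := by
  refine ⟨B5c.fam s A, B5c.isCartier_fam s hC A, ?_⟩
  ext v
  rw [toDiv_apply s hC (B5c.isCartier_fam s hC A)]
  exact B5c.ord_fam s hC A v

end Fermat.Agent.S26.CURVE
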