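import Fermat.Agent.S26.CURVE.Main
import Fermat.Prelude.Def_AlgebraicCurve_Repartitions

/-!
# S26 / P12 CURVE : the package EXPORT `exists_riemann_genus` (helper9916)

Exact frozen signature of `Fermat.Agent.S26.exists_riemann_genus`
(`Fermat/Agent/S26/CurveAlg.lean` on origin/helper3926), proved from the assembled leaves
`core : Core K F` (`Main.lean`, leaves L0 .. L11 of the P12 board of helper736).

Glue: `export_isFF1` (essentially of finite type + transcendence degree one gives `IsFF1`),
`LSpace K F D = riemannRochSpace D` by `rfl`, `γ := riemannGenus K F`.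
-/

set_option autoImplicit false

namespace Fermat.Agent.S26.CURVE

open AlgebraicCurve

/-- A field extension essentially of finite type and of transcendence degree one is finite over
`K(x)` for some transcendental `x`. -/
theorem export_isFF1 (K F : Type*) [Field K] [Field F] [Algebra K F]
    [Algebra.EssFiniteType K F] (htr : Algebra.trdeg K F = 1) : IsFF1 K F := by
  obtain ⟨s, hs⟩ := exists_isTranscendenceBasis K F
  have hcard : Cardinal.mk s = 1 := by rw [hs.cardinalMk_eq_trdeg, htr]
  obtain ⟨x, rfl⟩ : ∃ x, s = {x} := by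
    rw [Cardinal.eq_one_iff_unique] at hcard
    obtain ⟨hsub, ⟨⟨x, hx⟩⟩⟩ := hcard
    refine ⟨x, Set.eq_singleton_iff_unique_mem.mpr ⟨hx, fun y hy => ?_⟩⟩
    exact congrArg Subtype.val (hsub.elim ⟨y, hy⟩ ⟨x, hx⟩)
  have htrx : Transcendental K x := by
    have := hs.1.transcendental ⟨x, rfl⟩
    simpa using this
  have halg : Algebra.IsAlgebraic (IntermediateField.adjoin K ({x} : Set F)) F := by
    have := hs.isAlgebraic_field
    rwa [Subtype.range_coe] at this
  refine ⟨x, htrx, ?_⟩
  have : Algebra.EssFiniteType (IntermediateField.adjoin K ({x} : Set F)) F :=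
    Algebra.EssFiniteType.of_comp K _ F
  obtain ⟨t, ht⟩ := IntermediateField.fg_top (IntermediateField.adjoin K ({x} : Set F)) F
  have hfin : FiniteDimensional (IntermediateField.adjoin K ({x} : Set F))
      (IntermediateField.adjoin (IntermediateField.adjoin K ({x} : Set F)) (t : Set F)) :=
    IntermediateField.finiteDimensional_adjoin
      (fun y _ => (Algebra.IsAlgebraic.isAlgebraic y).isIntegral)
  rw [ht] at hfin
  exact (IntermediateField.topEquiv (F := IntermediateField.adjoin K ({x} : Set F))
    (E := F)).toLinearEquiv.finiteDimensional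

/-- The skeleton space `LSpace` is the prelude `riemannRochSpace`. -/
theorem export_LSpace_eq {K F : Type*} [Field K] [Field F] [Algebra K F] (D : Divisor K F) :
    LSpace K F D = riemannRochSpace D := rfl

/-- P12 EXPORT (Riemann's theorem and a non-special effective divisor), exact frozen signature of
`Fermat.Agent.S26.exists_riemann_genus`. -/
theorem exists_riemann_genus (K F : Type*) [Field K] [Field F] [Algebra K F] [IsAlgClosed K]
    [Algebra.EssFiniteType K F] (htr : Algebra.trdeg K F = 1) :
    HasPrincipalDivisors K F ∧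
    (∀ D : Divisor K F, Module.Finite K (riemannRochSpace D)) ∧
    ∃ γ : ℕ,
      (∀ D : Divisor K F,
        Divisor.degree D + 1 - (γ : ℤ) ≤ (Module.finrank K (riemannRochSpace D) : ℤ)) ∧
      ∃ E : Divisor K F, 0 ≤ E ∧ Divisor.degree E = (γ : ℤ) ∧
        Module.finrank K (riemannRochSpace E) = 1 := by
  have hff : IsFF1 K F := export_isFF1 K F htr
  have hc : Core K F := core K F
  refine ⟨hc.principal, fun D => ?_, riemannGenus K F, fun D => ?_, ?_⟩
  · rw [← export_LSpace_eq D]; exact hc.finite.1 D
  · have h := hc.riemann.1 D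
    have h2 : (ell K F D : ℤ) = (Module.finrank K (riemannRochSpace D) : ℤ) := rfl
    rw [← h2]; linarith
  · obtain ⟨E, hE0, hEdeg, hE1⟩ := hc.nonSpecial
    exact ⟨E, hE0, hEdeg, hE1⟩

/-- Extra export (used by SEESAW step (E)): an effective divisor linearly equivalent to a divisor
`E` with `ℓ(E) = 1`, `E ≥ 0`, equals `E`. -/
theorem eq_of_effective_of_linEquiv (K F : Type*) [Field K] [Field F] [Algebra K F] [IsAlgClosed K]
    [Algebra.EssFiniteType K F] (htr : Algebra.trdeg K F = 1)
    (E E' Df : Divisor K F) (f : F) (hE : Module.finrank K (riemannRochSpace E) = 1)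
    (h0 : 0 ≤ E) (h0' : 0 ≤ E') (hf : f ≠ 0) (hDf : ∀ v : Place K F, Df v = v.ord f)
    (h : E' = E + Df) : E' = E := by
  have hff : IsFF1 K F := export_isFF1 K F htr
  exact (core K F).unique E E' Df f hE h0 h0' hf hDf h

end Fermat.Agent.S26.CURVE
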