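import Fermat.Agent.S26.CURVE.BridgeDefs

/-!
# S26 / P12 CURVE leaf B0 (GEOM): basic facts on `localRing X x` (helper736)
-/

set_option autoImplicit false

namespace Fermat.Agent.S26.CURVE

open AlgebraicGeometry AlgebraicCurve CategoryTheory

universe u

variable {X : Scheme.{u}} [IsIntegral X]

namespace B0

theorem algebraMap_eq (x : X) :
    algebraMap (X.presheaf.stalk x) X.functionField =
      (X.presheaf.stalkSpecializes ((genericPoint_spec X).specializes trivial)).hom := rfl

theorem mem_localRing_iff {x : X} {f : X.functionField} :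
    f ∈ localRing X x ↔ ∃ a : X.presheaf.stalk x,
      algebraMap (X.presheaf.stalk x) X.functionField a = f := Iff.rfl

end B0

/-- The local ring at the generic point is the whole function field. -/
theorem localRing_genericPoint : localRing X (genericPoint X) = ⊤ := by
  rw [eq_top_iff]
  intro f _
  refine ⟨f, ?_⟩
  rw [B0.algebraMap_eq]
  have h := TopCat.Presheaf.stalkSpecializes_refl X.presheaf (genericPoint X)
  have h2 : X.presheaf.stalkSpecializes ((genericPoint_spec X).specializes
      (trivial : genericPoint X ∈ (⊤ : Set X))) =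
      X.presheaf.stalkSpecializes (specializes_refl (genericPoint X)) := rfl
  rw [h2, h]
  rfl

/-- Specialisation shrinks the local ring. -/
theorem localRing_le_of_specializes {x y : X} (h : x ⤳ y) : localRing X y ≤ localRing X x := by
  rintro f ⟨a, rfl⟩
  refine ⟨(X.presheaf.stalkSpecializes h).hom a, ?_⟩
  rw [B0.algebraMap_eq, B0.algebraMap_eq]
  have h1 := TopCat.Presheaf.stalkSpecializes_comp X.presheaf
    ((genericPoint_spec X).specializes (trivial : x ∈ (⊤ : Set X))) h
  have h2 := congrArg (fun φ => φ.hom a) h1
  simp only [CommRingCat.hom_comp, RingHom.comp_apply] at h2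
  exact h2

/-- `localRing X x` is a local ring. -/
theorem isLocalRing_localRing (x : X) : IsLocalRing (localRing X x) :=
  IsLocalRing.of_surjective' (algebraMap (X.presheaf.stalk x) X.functionField).rangeRestrict
    (RingHom.rangeRestrict_surjective _)

/-- The function field is the fraction field of `localRing X x`. -/
theorem isFractionRing_localRing (x : X) : IsFractionRing (localRing X x) X.functionField := by
  rw [IsFractionRing, isLocalization_iff]
  refine ⟨?_, ?_, ?_⟩
  · rintro ⟨y, hy⟩
    have hy0 : y ≠ 0 := nonZeroDivisors.ne_zero hy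
    have : (y : X.functionField) ≠ 0 := fun h => hy0 (Subtype.ext h)
    exact IsUnit.mk0 _ this
  · intro z
    obtain ⟨a, b, hb, rfl⟩ := IsFractionRing.div_surjective (A := X.presheaf.stalk x) z
    have hb0 : algebraMap (X.presheaf.stalk x) X.functionField b ≠ 0 := by
      intro h
      exact nonZeroDivisors.ne_zero hb
        (IsFractionRing.injective (X.presheaf.stalk x) X.functionField (by rw [h, map_zero]))
    refine ⟨⟨⟨_, ⟨a, rfl⟩⟩, ⟨⟨_, ⟨b, rfl⟩⟩, ?_⟩⟩, ?_⟩
    · rw [mem_nonZeroDivisors_iff_ne_zero]
      intro h
      exact hb0 (congrArg Subtype.val h)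
    · show _ / _ * algebraMap (X.presheaf.stalk x) X.functionField b = _
      field_simp
      rfl
  · intro a b hab
    exact ⟨1, by rw [Subtype.ext hab]⟩

/-- Normality at `x`, in the function field. -/
theorem isIntegrallyClosedIn_localRing (x : X) (h : IsIntegrallyClosed (X.presheaf.stalk x)) :
    IsIntegrallyClosedIn (localRing X x) X.functionField := by
  rw [isIntegrallyClosedIn_iff]
  refine ⟨Subtype.val_injective, ?_⟩
  intro f hf
  have hf' : IsIntegral (X.presheaf.stalk x) f := by
    obtain ⟨p, hp, hpf⟩ := hf
    -- lift the coefficients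
    let e : X.presheaf.stalk x →+* localRing X x :=
      (algebraMap (X.presheaf.stalk x) X.functionField).rangeRestrict
    have hsurj : Function.Surjective e := fun ⟨_, a, ha⟩ => ⟨a, Subtype.ext ha⟩
    obtain ⟨q, hq, -, hqm⟩ := Polynomial.lifts_and_natDegree_eq_and_monic
      ((Polynomial.mem_lifts p).mpr (Polynomial.map_surjective e hsurj p)) hp
    refine ⟨q, hqm, ?_⟩
    rw [← hq, Polynomial.eval₂_map] at hpf
    have hcomp : (algebraMap (localRing X x) X.functionField).comp e =
        algebraMap (X.presheaf.stalk x) X.functionField := RingHom.ext fun a => rfl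
    rw [hcomp] at hpf
    exact hpf
  obtain ⟨y, hy⟩ := IsIntegrallyClosed.isIntegral_iff.mp hf'
  exact ⟨⟨f, ⟨y, hy⟩⟩, rfl⟩

/-- The local ring at a non-generic point is not the whole function field. -/
theorem localRing_ne_top {x : X} (hx : x ≠ genericPoint X) : localRing X x ≠ ⊤ := by
  intro htop
  apply hx
  -- the stalk at `x` is a field
  have hbij : Function.Bijective (algebraMap (X.presheaf.stalk x) X.functionField) := by
    refine ⟨IsFractionRing.injective _ _, fun f => ?_⟩
    have : f ∈ localRing X x := by rw [htop]; exact Subring.mem_top f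
    exact this
  have hfield : IsField (X.presheaf.stalk x) :=
    (RingEquiv.ofBijective _ hbij).toMulEquiv.isField (Field.toIsField X.functionField)
  have hsub : Subsingleton (PrimeSpectrum (X.presheaf.stalk x)) := by
    let _ := hfield.toField
    infer_instance
  have hη : genericPoint X ⤳ x := (genericPoint_spec X).specializes trivial
  have h1 : genericPoint X ∈ Set.range (X.fromSpecStalk x) := by
    rw [Scheme.range_fromSpecStalk]; exact hη
  have h2 : x ∈ Set.range (X.fromSpecStalk x) := by
    rw [Scheme.range_fromSpecStalk]; exact specializes_refl x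
  obtain ⟨a, ha⟩ := h1
  obtain ⟨b, hb⟩ := h2
  have hab : a = b := Subsingleton.elim (α := PrimeSpectrum (X.presheaf.stalk x)) a b
  rw [← hb, ← ha, hab]

/-- Every element of the function field is regular at all points of an open set:
`{x | f ∈ localRing X x}` is open. -/
theorem isOpen_setOf_mem_localRing (f : X.functionField) :
    IsOpen {x : X | f ∈ localRing X x} := by
  rw [isOpen_iff_forall_mem_open]
  rintro x ⟨a, rfl⟩
  obtain ⟨U, hxU, g, rfl⟩ := X.presheaf.exists_germ_eq a
  have : Nonempty U := ⟨⟨x, hxU⟩⟩
  refine ⟨U, ?_, U.isOpen, hxU⟩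
  intro y hy
  refine ⟨X.presheaf.germ U y hy g, ?_⟩
  rw [Scheme.algebraMap_germ_eq_germToFunctionField, Scheme.algebraMap_germ_eq_germToFunctionField]

end Fermat.Agent.S26.CURVE
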