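import Fermat.Agent.S26.CURVE.B5a_Support

/-!
# S26 / P12 CURVE leaf B5b (glue): dictionary between families of local equations on a normal
complete curve and prelude divisors of the function field
(helper8924; skeleton statements of helper736 unchanged; helper lemmas in namespace
`Fermat.Agent.S26.CURVE.B5b`)
-/

set_option autoImplicit false

namespace Fermat.Agent.S26.CURVE

open AlgebraicGeometry AlgebraicCurve CategoryTheory

universe u

variable {K : Type u} [Field K] {X : Scheme.{u}} [IsIntegral X]
  (s : X ⟶ Spec (CommRingCat.of K))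

namespace B5b

theorem isUnitAt_one (x : X) : IsUnitAt x (1 : X.functionField) :=
  ⟨Subring.one_mem _, by rw [inv_one]; exact Subring.one_mem _⟩

theorem isUnitAt_mul {x : X} {a b : X.functionField} (ha : IsUnitAt x a) (hb : IsUnitAt x b) :
    IsUnitAt x (a * b) :=
  ⟨Subring.mul_mem _ ha.1 hb.1, by rw [mul_inv]; exact Subring.mul_mem _ ha.2 hb.2⟩

theorem isUnitAt_inv {x : X} {a : X.functionField} (ha : IsUnitAt x a) : IsUnitAt x a⁻¹ :=
  ⟨ha.2, by rw [inv_inv]; exact ha.1⟩

theorem isUnitAt_genericPoint (a : X.functionField) : IsUnitAt (genericPoint X) a := by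
  unfold IsUnitAt
  rw [localRing_genericPoint]
  exact ⟨Subring.mem_top _, Subring.mem_top _⟩

theorem mem_localRing_genericPoint (a : X.functionField) : a ∈ localRing X (genericPoint X) := by
  rw [localRing_genericPoint]
  exact Subring.mem_top _

/-- `ord` of a product of units. -/
theorem ord_units_mul (v : Place K (FF s)) (a b : (X.functionField)ˣ) :
    v.ord ((((a * b : (X.functionField)ˣ)) : X.functionField) : FF s) =
      v.ord ((a : X.functionField) : FF s) + v.ord ((b : X.functionField) : FF s) := by
  have key : ∀ p q : FF s, p ≠ 0 → q ≠ 0 → v.ord (p * q) = v.ord p + v.ord q :=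
    fun p q hp hq => v.ord_mul hp hq
  rw [Units.val_mul]
  exact key _ _ a.ne_zero b.ne_zero

/-- `ord` of the inverse of a unit. -/
theorem ord_units_inv (v : Place K (FF s)) (a : (X.functionField)ˣ) :
    v.ord ((((a⁻¹ : (X.functionField)ˣ)) : X.functionField) : FF s) =
      - v.ord ((a : X.functionField) : FF s) := by
  have key : ∀ p : FF s, v.ord p⁻¹ = - v.ord p := fun p => v.ord_inv p
  rw [Units.val_inv_eq_inv_val]
  exact key _

/-- `ord` of a function times a unit. -/
theorem ord_mul_unit (v : Place K (FF s)) {f : FF s} (hf : f ≠ 0) (a : (X.functionField)ˣ) :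
    v.ord (((id f : X.functionField) * (a : X.functionField) : X.functionField) : FF s) =
      v.ord f + v.ord ((a : X.functionField) : FF s) := by
  have key : ∀ p q : FF s, p ≠ 0 → q ≠ 0 → v.ord (p * q) = v.ord p + v.ord q :=
    fun p q hp hq => v.ord_mul hp hq
  exact key _ _ hf a.ne_zero

end B5b

theorem isCartier_one : (1 : Fam X).IsCartier := by
  intro x
  refine ⟨⊤, trivial, fun y _ => ?_⟩
  have e : (((1 : Fam X) y / (1 : Fam X) x : (X.functionField)ˣ) : X.functionField) = 1 := by
    simp
  rw [e]
  exact B5b.isUnitAt_one y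

theorem isCartier_mul {D D' : Fam X} (hD : D.IsCartier) (hD' : D'.IsCartier) :
    (D * D').IsCartier := by
  intro x
  obtain ⟨U, hxU, hU⟩ := hD x
  obtain ⟨U', hxU', hU'⟩ := hD' x
  refine ⟨U ⊓ U', ⟨hxU, hxU'⟩, fun y hy => ?_⟩
  have h := B5b.isUnitAt_mul (hU y hy.1) (hU' y hy.2)
  have e : (((D * D') y / (D * D') x : (X.functionField)ˣ) : X.functionField) =
      ((D y / D x : (X.functionField)ˣ) : X.functionField) *
        ((D' y / D' x : (X.functionField)ˣ) : X.functionField) := by
    rw [← Units.val_mul]
    congr 1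
    simp only [Pi.mul_apply]
    rw [div_mul_div_comm]
  rw [e]
  exact h

theorem isCartier_inv {D : Fam X} (hD : D.IsCartier) : D⁻¹.IsCartier := by
  intro x
  obtain ⟨U, hxU, hU⟩ := hD x
  refine ⟨U, hxU, fun y hy => ?_⟩
  have h := B5b.isUnitAt_inv (hU y hy)
  have e : ((D⁻¹ y / D⁻¹ x : (X.functionField)ˣ) : X.functionField) =
      ((D y / D x : (X.functionField)ˣ) : X.functionField)⁻¹ := by
    rw [← Units.val_inv_eq_inv_val]
    congr 1
    simp only [Pi.inv_apply]
    rw [inv_div_inv, inv_div]
  rw [e]
  exact h

theorem isCartier_const (f : (X.functionField)ˣ) : (Fam.const f).IsCartier := by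
  intro x
  refine ⟨⊤, trivial, fun y _ => ?_⟩
  have e : ((Fam.const f y / Fam.const f x : (X.functionField)ˣ) : X.functionField) = 1 := by
    simp [Fam.const]
  rw [e]
  exact B5b.isUnitAt_one y

theorem toDiv_one (hC : IsCompleteCurve s) : toDiv s (1 : Fam X) = 0 := by
  ext v
  rw [toDiv_apply s hC isCartier_one]
  exact v.ord_one

theorem toDiv_mul (hC : IsCompleteCurve s) {D D' : Fam X} (hD : D.IsCartier)
    (hD' : D'.IsCartier) : toDiv s (D * D') = toDiv s D + toDiv s D' := by
  ext v
  rw [Finsupp.add_apply, toDiv_apply s hC (isCartier_mul hD hD'), toDiv_apply s hC hD,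
    toDiv_apply s hC hD']
  exact B5b.ord_units_mul s v _ _

theorem toDiv_inv (hC : IsCompleteCurve s) {D : Fam X} (hD : D.IsCartier) :
    toDiv s D⁻¹ = - toDiv s D := by
  ext v
  rw [Finsupp.neg_apply, toDiv_apply s hC (isCartier_inv hD), toDiv_apply s hC hD]
  exact B5b.ord_units_inv s v _

theorem toDiv_const (hC : IsCompleteCurve s) (f : (X.functionField)ˣ) (v : Place K (FF s)) :
    toDiv s (Fam.const f) v = v.ord (((f : (X.functionField)ˣ) : X.functionField) : FF s) := by
  rw [toDiv_apply s hC (isCartier_const f)]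
  rfl

theorem same_iff_toDiv_eq (hC : IsCompleteCurve s) {D D' : Fam X} (hD : D.IsCartier)
    (hD' : D'.IsCartier) : Fam.Same D D' ↔ toDiv s D = toDiv s D' := by
  constructor
  · intro h
    ext v
    rw [toDiv_apply s hC hD, toDiv_apply s hC hD']
    have hu := h (ptOf s v)
    rw [isUnitAt_ptOf_iff s hC, B5a.ord_units_div] at hu
    unfold ordFam
    omega
  · intro h x
    by_cases hx : x = genericPoint X
    · subst hx
      exact B5b.isUnitAt_genericPoint _
    · obtain ⟨v, rfl⟩ := exists_ptOf_eq s hC hx
      rw [isUnitAt_ptOf_iff s hC, B5a.ord_units_div]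
      have hv : toDiv s D v = toDiv s D' v := by rw [h]
      rw [toDiv_apply s hC hD, toDiv_apply s hC hD'] at hv
      unfold ordFam at hv
      omega

theorem isEffective_iff (hC : IsCompleteCurve s) {D : Fam X} (hD : D.IsCartier) :
    D.IsEffective ↔ 0 ≤ toDiv s D := by
  rw [Finsupp.le_def]
  constructor
  · intro h v
    rw [toDiv_apply s hC hD, Finsupp.zero_apply]
    exact (mem_localRing_ptOf_iff s hC v _).mp (h (ptOf s v))
  · intro h x
    by_cases hx : x = genericPoint X
    · subst hx
      exact B5b.mem_localRing_genericPoint _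
    · obtain ⟨v, rfl⟩ := exists_ptOf_eq s hC hx
      have hv := h v
      rw [toDiv_apply s hC hD, Finsupp.zero_apply] at hv
      exact (mem_localRing_ptOf_iff s hC v _).mpr hv

theorem mem_LSpace_iff (hC : IsCompleteCurve s) {D : Fam X} (hD : D.IsCartier) (f : FF s) :
    f ∈ Fermat.Agent.S26.LSpace s D ↔ f ∈ riemannRochSpace (toDiv s D) := by
  rw [Fermat.Agent.S26.mem_LSpace, mem_riemannRochSpace_iff]
  constructor
  · intro h v
    by_cases hf : f = 0
    · exact Or.inl hf
    · right
      have h1 := (mem_localRing_ptOf_iff s hC v _).mp (h (ptOf s v))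
      rw [B5b.ord_mul_unit s v hf] at h1
      rw [toDiv_apply s hC hD]
      unfold ordFam
      omega
  · intro h x
    by_cases hx : x = genericPoint X
    · subst hx
      exact B5b.mem_localRing_genericPoint _
    · obtain ⟨v, rfl⟩ := exists_ptOf_eq s hC hx
      rw [mem_localRing_ptOf_iff s hC]
      rcases h v with hf | hv
      · subst hf
        have e : ((id (0 : FF s) : X.functionField) *
            ((D (ptOf s v) : (X.functionField)ˣ) : X.functionField)) = 0 := zero_mul _
        rw [e]
        exact le_of_eq v.ord_zero.symm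
      · by_cases hf : f = 0
        · subst hf
          have e : ((id (0 : FF s) : X.functionField) *
              ((D (ptOf s v) : (X.functionField)ˣ) : X.functionField)) = 0 := zero_mul _
          rw [e]
          exact le_of_eq v.ord_zero.symm
        · rw [B5b.ord_mul_unit s v hf]
          rw [toDiv_apply s hC hD] at hv
          unfold ordFam at hv
          omega

end Fermat.Agent.S26.CURVE
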