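import Mathlib
import Fermat.Prelude.Def_AlgebraicCurve_IsCurveOver

/-!
# S26 / package P12 CURVE : shared definitions (frozen interface, sub-lead helper736)

Function fields in one variable over an algebraically closed field `K`, in the language of the
prelude (`AlgebraicCurve.Place K F`, `AlgebraicCurve.Divisor K F`).  No characteristic assumption.
-/

set_option autoImplicit false

namespace Fermat.Agent.S26.CURVE

open AlgebraicCurve

universe u v

variable (K : Type u) (F : Type v) [Field K] [Field F] [Algebra K F]

/-- `F / K` is a function field in one variable: finite over `K(x)` for a transcendental `x`. -/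
class IsFF1 : Prop where
  exists_finite : ∃ x : F, Transcendental K x ∧
    FiniteDimensional (IntermediateField.adjoin K {x}) F

variable {K F}

theorem adicValuation_algebraMap_le_one (v : Place K F) (c : K) :
    v.adicValuation (algebraMap K F c) ≤ 1 := by
  have h := v.adicValuation_coe ⟨algebraMap K F c, v.algebraMap_mem' c⟩
  rw [h]
  exact (v.heightOneSpectrum).intValuation_le_one _

variable (K F)

/-- The Riemann-Roch space `L(D) = {f : ord_v f + D v ≥ 0 for all places v} ∪ {0}`. -/
def LSpace (D : Divisor K F) : Submodule K F where
  carrier := {f | ∀ v : Place K F, v.adicValuation f ≤ WithZero.exp (D v)}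
  zero_mem' := fun v => by simp
  add_mem' := fun {f g} hf hg v =>
    le_trans (v.adicValuation.map_add f g) (max_le (hf v) (hg v))
  smul_mem' := fun c f hf v => by
    rw [Algebra.smul_def, map_mul]
    calc v.adicValuation (algebraMap K F c) * v.adicValuation f
        ≤ 1 * WithZero.exp (D v) := mul_le_mul' (adicValuation_algebraMap_le_one v c) (hf v)
      _ = WithZero.exp (D v) := one_mul _

/-- `ℓ(D) = dim_K L(D)` (junk value `0` if infinite-dimensional). -/
noncomputable def ell (D : Divisor K F) : ℕ := Module.finrank K (LSpace K F D)

variable {K F}

theorem mem_LSpace {D : Divisor K F} {f : F} :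
    f ∈ LSpace K F D ↔ ∀ v : Place K F, v.adicValuation f ≤ WithZero.exp (D v) := Iff.rfl

end Fermat.Agent.S26.CURVE
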