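import Fermat.Agent.S26.Defs
import Fermat.Agent.S26.FF.Exists
import Fermat.Agent.S26.FF.Val
import Fermat.Prelude.Def_AlgebraicCurve_Repartitions

/-!
# S26 / P12 CURVE, Part B (bridge scheme <-> function field): shared definitions
(FROZEN interface, sub-lead helper736)

`X` an integral scheme with structure morphism `s : X ⟶ Spec K`; `FF s` is its function field
as a `K`-algebra, `localRing X x` the local ring at `x` inside it (lead's `Defs.lean`).
A "normal complete curve" is described by `IsCompleteCurve s` below: NO dimension theory and NO
noetherian hypothesis are used; all information comes from the function field being a function
field in one variable (`FF.IsFF1`) and from the valuative criterion.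
-/

set_option autoImplicit false

namespace Fermat.Agent.S26.CURVE

open AlgebraicGeometry AlgebraicCurve CategoryTheory

universe u

variable {K : Type u} [Field K] {X : Scheme.{u}} [IsIntegral X]
  (s : X ⟶ Spec (CommRingCat.of K))

/-- The hypotheses "normal complete curve over `K`" used by the bridge. -/
structure IsCompleteCurve : Prop where
  /-- completeness, part 1 (existence part of the valuative criterion + quasi-compactness) -/
  univClosed : UniversallyClosed s
  /-- completeness, part 2 (uniqueness part of the valuative criterion) -/
  separated : IsSeparated s
  /-- normality -/
  normal : ∀ x : X, IsIntegrallyClosed (X.presheaf.stalk x)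
  /-- the function field is a function field in one variable over `K` -/
  ff1 : FF.IsFF1 K (FF s)
  /-- a transcendental function has finitely many zeros (Part A, C3; will be removed from the
  hypotheses by the sub-lead once `FF/Zeros.lean` has landed) -/
  finite_zeros : ∀ t : FF s, Transcendental K t → {v : Place K (FF s) | 0 < v.ord t}.Finite

/-- The point of `X` whose local ring is the valuation ring of the place `v`
(junk value: the generic point). -/
noncomputable def ptOf (v : Place K (FF s)) : X :=
  open Classical in
  if h : ∃ x : X, localRing X x = v.toValuationSubring.toSubring then h.choose
  else genericPoint X

/-- The function `v ↦ ord_v (local equation of D at the point of v)`. -/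
noncomputable def ordFam (D : Fam X) (v : Place K (FF s)) : ℤ :=
  v.ord (((D (ptOf s v) : (X.functionField)ˣ) : X.functionField) : FF s)

/-- The divisor (in the sense of the prelude) of a family of local equations
(junk value `0` if the support is infinite; it is finite for Cartier families). -/
noncomputable def toDiv (D : Fam X) : Divisor K (FF s) :=
  open Classical in
  if h : (Function.support (ordFam s D)).Finite then Finsupp.ofSupportFinite _ h else 0

/-- The degree of a family of local equations on a curve. -/
noncomputable def famDeg (D : Fam X) : ℤ := Divisor.degree (toDiv s D)

end Fermat.Agent.S26.CURVE
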