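import Fermat.Agent.S26.CURVE.Statements

/-! S26 / P12 CURVE leaf L0: finiteness over `K(y)` for every transcendental `y`; constants. -/

set_option autoImplicit false

namespace Fermat.Agent.S26.CURVE

open AlgebraicCurve

universe u v

variable {K : Type u} {F : Type v} [Field K] [Field F] [Algebra K F]

open scoped IntermediateField.algebraAdjoinAdjoin in
theorem l0_isAlgebraic_adjoin (x : F)
    [FiniteDimensional (IntermediateField.adjoin K {x}) F] :
    Algebra.IsAlgebraic (Algebra.adjoin K ({x} : Set F)) F := by
  have h1 : Algebra.IsAlgebraic (IntermediateField.adjoin K {x}) F :=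
    Algebra.IsAlgebraic.of_finite _ _
  exact Algebra.IsAlgebraic.trans (Algebra.adjoin K ({x} : Set F))
    (IntermediateField.adjoin K {x}) F

theorem finiteOver [IsFF1 K F] : StFiniteOver K F := by
  intro y hy
  obtain ⟨x, hx, hfin⟩ := IsFF1.exists_finite (K := K) (F := F)
  have halg : Algebra.IsAlgebraic (Algebra.adjoin K ({x} : Set F)) F := l0_isAlgebraic_adjoin x
  have htr : Algebra.trdeg K F ≤ 1 := by
    have := Algebra.IsAlgebraic.trdeg_le_cardinalMk K ({x} : Set F)
    simpa using this
  have hy' : AlgebraicIndependent K (fun _ : PUnit.{v+1} => y) :=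
    algebraicIndependent_unique_type_iff.mpr hy
  have hb : IsTranscendenceBasis K (fun _ : PUnit.{v+1} => y) :=
    hy'.isTranscendenceBasis_of_trdeg_le_of_finite (by simpa using htr)
  have halg' := hb.isAlgebraic_field
  have hrange : Set.range (fun _ : PUnit.{v+1} => y) = {y} := by
    ext z; simp [eq_comm]
  rw [hrange] at halg'
  have e1 : Algebra.EssFiniteType K (IntermediateField.adjoin K {x}) := by
    rw [IntermediateField.essFiniteType_iff]
    exact ⟨{x}, by simp⟩
  have e2 : Algebra.EssFiniteType K F :=
    Algebra.EssFiniteType.comp K (IntermediateField.adjoin K {x}) F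
  have e3 : Algebra.EssFiniteType (IntermediateField.adjoin K {y}) F :=
    Algebra.EssFiniteType.of_comp K (IntermediateField.adjoin K {y}) F
  exact Algebra.finite_of_essFiniteType_of_isAlgebraic

theorem constants [IsAlgClosed K] : StConstants K F := by
  intro f hf
  have hirr := minpoly.irreducible hf.isIntegral
  have hdeg := IsAlgClosed.degree_eq_one_of_irreducible K hirr
  obtain ⟨c, hc⟩ := minpoly.mem_range_of_degree_eq_one K f hdeg
  exact ⟨c, hc.symm⟩

end Fermat.Agent.S26.CURVE
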