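import Fermat.Agent.S26.CURVE.Statements

/-! S26 / P12 CURVE leaf L10_Riemann (helper8924): Riemann's theorem for the least constant
`riemannGenus K F` in Riemann's inequality. -/

set_option autoImplicit false

namespace Fermat.Agent.S26.CURVE

open AlgebraicCurve

universe u v

variable {K : Type u} {F : Type v} [Field K] [Field F] [Algebra K F]

/-- The least constant satisfies Riemann's inequality. -/
theorem l10_ineq (hr : StRiemannIneq K F) (D : Divisor K F) :
    Divisor.degree D + 1 ≤ (ell K F D : ℤ) + riemannGenus K F := by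
  have hne : {γ : ℕ | ∀ D : Divisor K F, Divisor.degree D + 1 ≤ (ell K F D : ℤ) + γ}.Nonempty := hr
  exact Nat.sInf_mem hne D

/-- `ℓ(0) = 1`. -/
theorem l10_ell_zero (hs : StSmall K F) : ell K F (0 : Divisor K F) = 1 := by
  unfold ell
  rw [hs.2]
  exact finrank_span_singleton one_ne_zero

/-- The least constant is attained. -/
theorem l10_exists_extremal (hs : StSmall K F) (hr : StRiemannIneq K F) :
    ∃ D₀ : Divisor K F, Divisor.degree D₀ + 1 = (ell K F D₀ : ℤ) + riemannGenus K F := by
  rcases Nat.eq_zero_or_pos (riemannGenus K F) with h0 | hpos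
  · refine ⟨0, ?_⟩
    rw [h0, l10_ell_zero hs]
    simp
  · have hlt : riemannGenus K F - 1 < riemannGenus K F := Nat.sub_lt hpos Nat.one_pos
    have hnot : riemannGenus K F - 1 ∉
        {γ : ℕ | ∀ D : Divisor K F, Divisor.degree D + 1 ≤ (ell K F D : ℤ) + γ} :=
      Nat.notMem_of_lt_sInf hlt
    simp only [Set.mem_ofPred_eq, not_forall, not_le] at hnot
    obtain ⟨D₀, hD₀⟩ := hnot
    refine ⟨D₀, le_antisymm (l10_ineq hr D₀) ?_⟩
    have hcast : ((riemannGenus K F - 1 : ℕ) : ℤ) = (riemannGenus K F : ℤ) - 1 := by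
      rw [Nat.cast_sub hpos]
      simp
    rw [hcast] at hD₀
    linarith

/-- An element of `L(D)` has order at least `-D v` at every place. -/
theorem l10_ord_ge {D : Divisor K F} {z : F} (hz : z ≠ 0) (hmem : z ∈ LSpace K F D)
    (v : Place K F) : -(D v) ≤ v.ord z := by
  have h := hmem v
  have hne : v.adicValuation z ≠ 0 := v.adicValuation_ne_zero hz
  have hlog : WithZero.log (v.adicValuation z) ≤ D v := by
    have := (WithZero.log_le_log hne (WithZero.exp_ne_zero)).mpr h
    simpa using this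
  unfold Place.ord
  linarith

theorem riemann [IsAlgClosed K] [IsFF1 K F] (hdeg : StDegOne K F) (hp : StPrincipal K F)
    (hc : StCodim K F) (hs : StSmall K F) (hf : StFinite K F) (hl : StLinEquiv K F)
    (hr : StRiemannIneq K F) : StRiemann K F := by
  have _ := hdeg
  have _ := hc
  refine ⟨l10_ineq hr, ?_⟩
  obtain ⟨D₀, hD₀⟩ := l10_exists_extremal hs hr
  refine ⟨Divisor.degree D₀ + riemannGenus K F, fun D hD => ?_⟩
  refine le_antisymm (l10_ineq hr D) ?_
  -- a nonzero element of `L(D - D₀)`
  have h1 := l10_ineq hr (D - D₀)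
  rw [map_sub] at h1
  have hpos : 0 < ell K F (D - D₀) := by
    have : (0 : ℤ) < (ell K F (D - D₀) : ℤ) := by linarith
    exact_mod_cast this
  have hne : LSpace K F (D - D₀) ≠ ⊥ := by
    intro hbot
    unfold ell at hpos
    rw [hbot, finrank_bot] at hpos
    exact lt_irrefl _ hpos
  obtain ⟨z, hzmem, hz0⟩ := Submodule.exists_mem_ne_zero_of_ne_bot hne
  obtain ⟨Dz, hDz, hDzdeg⟩ := hp.exists_divisor z hz0
  -- `D₀ ≤ D + (z)`
  have hle : D₀ ≤ D + Dz := by
    rw [Finsupp.le_def]
    intro v
    have h2 := l10_ord_ge hz0 hzmem v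
    rw [Finsupp.add_apply, hDz v]
    rw [Finsupp.sub_apply] at h2
    linarith
  have h3 := hf.2.2 (D + Dz) D₀ hle
  rw [hl D Dz z hz0 hDz, map_add, hDzdeg, add_zero] at h3
  linarith

end Fermat.Agent.S26.CURVE
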