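import Fermat.Agent.S26.CURVE.Statements

/-! S26 / P12 CURVE leaf L11_NonSpecial (helper2896): a non-special effective divisor of degree
`γ = riemannGenus`, constructed without Riemann-Roch by adding `γ` "good" places to `0`. -/

set_option autoImplicit false

namespace Fermat.Agent.S26.CURVE

open AlgebraicCurve

universe u v

variable {K : Type u} {F : Type v} [Field K] [Field F] [Algebra K F]

/-- `L` is monotone in the divisor. -/
theorem l11_LSpace_mono {A B : Divisor K F} (h : A ≤ B) : LSpace K F A ≤ LSpace K F B := by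
  intro f hf v
  refine le_trans (hf v) ?_
  exact WithZero.exp_le_exp.mpr (h v)

theorem l11_ell_mono (hf : StFinite K F) {A B : Divisor K F} (h : A ≤ B) :
    ell K F A ≤ ell K F B := by
  haveI := hf.1 B
  exact Submodule.finrank_mono (l11_LSpace_mono h)

theorem l11_ell_lt (hf : StFinite K F) {A B : Divisor K F} (h : A ≤ B) (f : F)
    (hfB : f ∈ LSpace K F B) (hfA : f ∉ LSpace K F A) : ell K F A < ell K F B := by
  haveI := hf.1 B
  refine Submodule.finrank_lt_finrank_of_lt (lt_of_le_of_ne (l11_LSpace_mono h) ?_)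
  intro heq
  exact hfA (heq ▸ hfB)

theorem l11_le_add_single (D : Divisor K F) (P : Place K F) : D ≤ D + Finsupp.single P 1 := by
  classical
  intro v
  rw [Finsupp.add_apply]
  have : (0 : ℤ) ≤ (Finsupp.single P (1 : ℤ)) v := by
    rw [Finsupp.single_apply]; split_ifs <;> simp
  linarith

/-- Adding a place `P` outside `s` to `D + ∑_{Q ∈ s} Q` enlarges `L` as soon as it enlarges
`L(D)`. -/
theorem l11_step (hf : StFinite K F) (D : Divisor K F) (P : Place K F) (s : Finset (Place K F))
    (hP : P ∉ s) (hne : ell K F (D + Finsupp.single P 1) ≠ ell K F D) :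
    ell K F (D + ∑ Q ∈ s, Finsupp.single Q (1 : ℤ)) <
      ell K F (D + ∑ Q ∈ s, Finsupp.single Q (1 : ℤ) + Finsupp.single P 1) := by
  classical
  -- a function in `L(D + P) \ L(D)`
  have hlt : LSpace K F D < LSpace K F (D + Finsupp.single P 1) := by
    refine lt_of_le_of_ne (l11_LSpace_mono (l11_le_add_single D P)) ?_
    intro heq
    apply hne
    unfold ell
    rw [heq]
  obtain ⟨f, hfB, hfA⟩ := SetLike.exists_of_lt hlt
  -- `f` has a pole of order exactly `D P + 1` at `P`
  have hpole : ¬ P.adicValuation f ≤ WithZero.exp (D P) := by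
    intro hle
    apply hfA
    intro v
    by_cases hv : v = P
    · rw [hv]; exact hle
    · have h1 := hfB v
      rw [Finsupp.add_apply, Finsupp.single_apply, if_neg (Ne.symm hv), add_zero] at h1
      exact h1
  refine l11_ell_lt hf (l11_le_add_single _ P) f ?_ ?_
  · -- `f ∈ L(D' + P)`
    intro v
    refine le_trans (hfB v) (WithZero.exp_le_exp.mpr ?_)
    simp only [Finsupp.add_apply]
    have : (0 : ℤ) ≤ (∑ Q ∈ s, Finsupp.single Q (1 : ℤ)) v := by
      rw [Finsupp.finsetSum_apply]
      refine Finset.sum_nonneg fun Q _ => ?_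
      rw [Finsupp.single_apply]; split_ifs <;> simp
    linarith
  · -- `f ∉ L(D')`
    intro hmem
    apply hpole
    have h1 := hmem P
    have h2 : (∑ Q ∈ s, Finsupp.single Q (1 : ℤ)) P = 0 := by
      rw [Finsupp.finsetSum_apply]
      refine Finset.sum_eq_zero fun Q hQ => ?_
      rw [Finsupp.single_apply, if_neg]
      rintro rfl
      exact hP hQ
    rw [Finsupp.add_apply, h2, add_zero] at h1
    exact h1

/-- If every place is "bad" for `D`, then `ℓ` grows by at least one for every added place. -/
theorem l11_grow (hf : StFinite K F) (D : Divisor K F)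
    (hbad : ∀ P : Place K F, ell K F (D + Finsupp.single P 1) ≠ ell K F D)
    (s : Finset (Place K F)) :
    ell K F D + s.card ≤ ell K F (D + ∑ Q ∈ s, Finsupp.single Q (1 : ℤ)) := by
  classical
  induction s using Finset.induction_on with
  | empty => simp
  | insert P s hP ih =>
    have h := l11_step hf D P s hP (hbad P)
    rw [Finset.card_insert_of_notMem hP, Finset.sum_insert hP]
    have e : D + (Finsupp.single P (1 : ℤ) + ∑ Q ∈ s, Finsupp.single Q (1 : ℤ)) =
        D + ∑ Q ∈ s, Finsupp.single Q (1 : ℤ) + Finsupp.single P 1 := by abel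
    rw [e]
    omega

theorem l11_degree_sum (hdeg : StDegOne K F) (s : Finset (Place K F)) :
    Divisor.degree (∑ Q ∈ s, Finsupp.single Q (1 : ℤ)) = s.card := by
  rw [map_sum]
  simp [Divisor.degree_single, hdeg _]

/-- A special divisor has a "good" place: adding it does not change `ℓ`. -/
theorem l11_exists_good (hdeg : StDegOne K F) (hi : StInfinitePlaces K F) (hf : StFinite K F)
    (hr : StRiemann K F) (D : Divisor K F)
    (hspec : Divisor.degree D + 1 < (ell K F D : ℤ) + riemannGenus K F) :
    ∃ P : Place K F, ell K F (D + Finsupp.single P 1) = ell K F D := by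
  by_contra hcon
  rw [not_exists] at hcon
  obtain ⟨c, hc⟩ := hr.2
  haveI : Infinite (Place K F) := hi
  -- choose `m` places with `deg D + m ≥ c`
  obtain ⟨s, hs⟩ := Infinite.exists_subset_card_eq (Place K F) (c - Divisor.degree D).toNat
  have hgrow := l11_grow hf D hcon s
  have hdegs : Divisor.degree (D + ∑ Q ∈ s, Finsupp.single Q (1 : ℤ)) =
      Divisor.degree D + s.card := by
    rw [map_add, l11_degree_sum hdeg]
  have hge : c ≤ Divisor.degree (D + ∑ Q ∈ s, Finsupp.single Q (1 : ℤ)) := by
    rw [hdegs, hs]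
    have := Int.self_le_toNat (c - Divisor.degree D)
    omega
  have heq := hc _ hge
  rw [hdegs] at heq
  have hgrow' : (ell K F D : ℤ) + s.card ≤
      (ell K F (D + ∑ Q ∈ s, Finsupp.single Q (1 : ℤ)) : ℤ) := by exact_mod_cast hgrow
  omega

theorem l11_ell_zero (hs : StSmall K F) : ell K F (0 : Divisor K F) = 1 := by
  unfold ell
  rw [hs.2]
  exact finrank_span_singleton one_ne_zero

theorem nonSpecial [IsAlgClosed K] [IsFF1 K F] (hdeg : StDegOne K F) (hi : StInfinitePlaces K F)
    (hp : StPrincipal K F) (hc : StCodim K F) (hs : StSmall K F) (hf : StFinite K F)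
    (hl : StLinEquiv K F) (hr : StRiemann K F) : StNonSpecial K F := by
  have key : ∀ k : ℕ, k ≤ riemannGenus K F →
      ∃ E : Divisor K F, 0 ≤ E ∧ Divisor.degree E = k ∧ ell K F E = 1 := by
    intro k
    induction k with
    | zero =>
      intro _
      exact ⟨0, le_refl _, by simp, l11_ell_zero hs⟩
    | succ k ih =>
      intro hk
      obtain ⟨E, hE0, hEdeg, hEell⟩ := ih (by omega)
      have hspec : Divisor.degree E + 1 < (ell K F E : ℤ) + riemannGenus K F := by
        rw [hEdeg, hEell]
        have : (k : ℤ) + 1 ≤ riemannGenus K F := by exact_mod_cast hk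
        push_cast
        omega
      obtain ⟨P, hPell⟩ := l11_exists_good hdeg hi hf hr E hspec
      refine ⟨E + Finsupp.single P 1, le_trans hE0 (l11_le_add_single E P), ?_, ?_⟩
      · rw [map_add, hEdeg, Divisor.degree_single, hdeg P]
        push_cast
        ring
      · rw [hPell, hEell]
  obtain ⟨E, hE0, hEdeg, hEell⟩ := key (riemannGenus K F) le_rfl
  exact ⟨E, hE0, hEdeg, hEell⟩

end Fermat.Agent.S26.CURVE
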