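import Fermat.Agent.S26.CURVE.Statements

/-! S26 / P12 CURVE leaf L1_Discrete: every nontrivial valuation ring of `F/K` is a PID
(Stichtenoth, Theorem 1.1.6), proved by helper743.

Valuation-theoretic form of Stichtenoth's chain argument: for `0 ≠ x` in the maximal ideal, every
nonzero element of `K(x)` has value `v(x)^m` (`m ∈ ℤ`), hence a strictly increasing chain
`v(x) = v(b_0) < v(b_1) < ... < 1` gives elements `b_i` that are linearly independent over `K(x)`;
as `[F : K(x)] < ∞` there is no infinite descending divisibility chain, so the (Bézout) valuation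
ring is a PID. -/

set_option autoImplicit false

namespace Fermat.Agent.S26.CURVE

open AlgebraicCurve Polynomial

universe u v

variable {K : Type u} {F : Type v} [Field K] [Field F] [Algebra K F]

/-- Order-theoretic key: values `c β`, `c' β'` with `c, c' ∈ γ^ℤ` and `γ ≤ β < β' < 1` differ. -/
private theorem l1_key {Γ : Type*} [LinearOrderedCommGroupWithZero Γ] {γ β β' c c' : Γ}
    (hγ : γ ≠ 0) (hγβ : γ ≤ β) (hββ' : β < β') (hβ' : β' < 1)
    {a b a' b' : ℕ} (hc : c * γ ^ a = γ ^ b) (hc' : c' * γ ^ a' = γ ^ b') :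
    c * β ≠ c' * β' := by
  intro h
  have hγ1 : γ ≤ 1 := le_of_lt (lt_of_le_of_lt hγβ (lt_trans hββ' hβ'))
  have hγpos : 0 < γ := zero_lt_iff.2 hγ
  have key : γ ^ (b + a') * β = γ ^ (b' + a) * β' := by
    calc γ ^ (b + a') * β = (c * γ ^ a) * γ ^ a' * β := by rw [hc, pow_add]
      _ = (c * β) * (γ ^ a * γ ^ a') := by ac_rfl
      _ = (c' * β') * (γ ^ a * γ ^ a') := by rw [h]
      _ = (c' * γ ^ a') * γ ^ a * β' := by ac_rfl
      _ = γ ^ (b' + a) * β' := by rw [hc', pow_add]
  rcases le_or_gt (b' + a) (b + a') with hpq | hpq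
  · have h1 : γ ^ (b + a') ≤ γ ^ (b' + a) := pow_le_pow_of_le_one (le_of_lt hγpos) hγ1 hpq
    have h2 : γ ^ (b + a') * β ≤ γ ^ (b' + a) * β := mul_le_mul_of_nonneg_right h1 zero_le
    have h3 : γ ^ (b' + a) * β < γ ^ (b' + a) * β' :=
      mul_lt_mul_of_pos_left hββ' (pow_pos hγpos _)
    exact absurd key (ne_of_lt (lt_of_le_of_lt h2 h3))
  · have h1 : γ ^ (b' + a) ≤ γ ^ (b + a' + 1) := pow_le_pow_of_le_one (le_of_lt hγpos) hγ1 hpq
    have h2 : γ ^ (b' + a) * β' ≤ γ ^ (b + a' + 1) * β' := mul_le_mul_of_nonneg_right h1 zero_le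
    have h3 : γ * β' < γ * 1 := mul_lt_mul_of_pos_left hβ' hγpos
    have h4 : γ ^ (b + a' + 1) * β' = γ ^ (b + a') * (γ * β') := by rw [pow_succ, mul_assoc]
    have h5 : γ ^ (b + a') * (γ * β') < γ ^ (b + a') * β := by
      apply mul_lt_mul_of_pos_left _ (pow_pos hγpos _)
      rw [mul_one] at h3
      exact lt_of_lt_of_le h3 hγβ
    rw [h4] at h2
    exact absurd key.symm (ne_of_lt (lt_of_le_of_lt h2 h5))

/-- Polynomial expressions in an element of `O` lie in `O`. -/
private theorem l1_aeval_mem (O : ValuationSubring F) (hK : ∀ a : K, algebraMap K F a ∈ O)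
    {x : F} (hx : x ∈ O) (p : K[X]) : aeval x p ∈ O := by
  rw [Polynomial.aeval_eq_sum_range]
  refine sum_mem fun i _ => ?_
  rw [Algebra.smul_def]
  exact O.mul_mem _ _ (hK _) (pow_mem hx i)

/-- Nonzero constants have value one. -/
private theorem l1_val_const (O : ValuationSubring F) (hK : ∀ a : K, algebraMap K F a ∈ O)
    {c : K} (hc : c ≠ 0) : O.valuation (algebraMap K F c) = 1 := by
  have h1 : O.valuation (algebraMap K F c) ≤ 1 := (O.valuation_le_one_iff _).2 (hK c)
  have h2 : O.valuation (algebraMap K F c⁻¹) ≤ 1 := (O.valuation_le_one_iff _).2 (hK c⁻¹)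
  have h3 : O.valuation (algebraMap K F c) * O.valuation (algebraMap K F c⁻¹) = 1 := by
    rw [← map_mul, ← map_mul, mul_inv_cancel₀ hc, map_one, map_one]
  refine le_antisymm h1 ?_
  calc (1 : O.ValueGroup) = O.valuation (algebraMap K F c) * O.valuation (algebraMap K F c⁻¹) :=
        h3.symm
    _ ≤ O.valuation (algebraMap K F c) * 1 := mul_le_mul_of_nonneg_left h2 zero_le
    _ = O.valuation (algebraMap K F c) := mul_one _

/-- The value of a polynomial expression with nonzero constant term in `x ∈ 𝔪` is one. -/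
private theorem l1_val_aeval_unit (O : ValuationSubring F) (hK : ∀ a : K, algebraMap K F a ∈ O)
    {x : F} (hx : O.valuation x < 1) {q : K[X]} (hq : q.coeff 0 ≠ 0) :
    O.valuation (aeval x q) = 1 := by
  have hxO : x ∈ O := (O.valuation_le_one_iff _).1 hx.le
  have h1 : aeval x q = aeval x q.divX * x + algebraMap K F (q.coeff 0) := by
    conv_lhs => rw [← Polynomial.divX_mul_X_add q]
    simp
  have h2 : O.valuation (aeval x q.divX * x) < 1 := by
    rw [map_mul]
    have h3 : O.valuation (aeval x q.divX) ≤ 1 :=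
      (O.valuation_le_one_iff _).2 (l1_aeval_mem O hK hxO _)
    calc O.valuation (aeval x q.divX) * O.valuation x ≤ 1 * O.valuation x :=
          mul_le_mul_of_nonneg_right h3 zero_le
      _ = O.valuation x := one_mul _
      _ < 1 := hx
  rw [h1, ← l1_val_const O hK hq]
  apply Valuation.map_add_eq_of_lt_right
  rw [l1_val_const O hK hq]
  exact h2

/-- The value of a nonzero polynomial expression in `x ∈ 𝔪 ∖ 0` is a power of the value of `x`. -/
private theorem l1_val_aeval (O : ValuationSubring F) (hK : ∀ a : K, algebraMap K F a ∈ O)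
    {x : F} (hx : O.valuation x < 1) {p : K[X]} (hp : p ≠ 0) :
    ∃ m : ℕ, O.valuation (aeval x p) = O.valuation x ^ m := by
  obtain ⟨q, hpq, hq⟩ := Polynomial.exists_eq_pow_rootMultiplicity_mul_and_not_dvd p hp 0
  rw [C_0, sub_zero] at hpq hq
  have hq0 : q.coeff 0 ≠ 0 := fun h => hq (Polynomial.X_dvd_iff.2 h)
  refine ⟨p.rootMultiplicity 0, ?_⟩
  conv_lhs => rw [hpq]
  rw [map_mul, map_pow, aeval_X, map_mul, map_pow, l1_val_aeval_unit O hK hx hq0, mul_one]

/-- The value of a nonzero element of `K(x)` is an integral power of the value of `x`. -/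
private theorem l1_val_adjoin (O : ValuationSubring F) (hK : ∀ a : K, algebraMap K F a ∈ O)
    {x : F} (hx : O.valuation x < 1) {g : F} (hg : g ∈ IntermediateField.adjoin K {x})
    (hg0 : g ≠ 0) :
    ∃ a b : ℕ, O.valuation g * O.valuation x ^ a = O.valuation x ^ b := by
  obtain ⟨r, s, hrs⟩ := (IntermediateField.mem_adjoin_simple_iff K g).1 hg
  have hs : aeval x s ≠ 0 := by
    intro h; apply hg0; rw [hrs, h, div_zero]
  have hr : aeval x r ≠ 0 := by
    intro h; apply hg0; rw [hrs, h, zero_div]
  have hs0 : s ≠ 0 := by rintro rfl; simp at hs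
  have hr0 : r ≠ 0 := by rintro rfl; simp at hr
  obtain ⟨a, ha⟩ := l1_val_aeval O hK hx hs0
  obtain ⟨b, hb⟩ := l1_val_aeval O hK hx hr0
  refine ⟨a, b, ?_⟩
  rw [← ha, ← hb, ← map_mul, hrs, div_mul_cancel₀ _ hs]

theorem discrete [IsAlgClosed K] [IsFF1 K F] (h0 : StFiniteOver K F) (h1 : StConstants K F) :
    StDiscrete K F := by
  intro O hK hO
  -- a valuation ring is Bézout, so it suffices to exclude infinite strict divisibility chains
  have hWf : WfDvdMonoid O := by
    refine ⟨wellFounded_iff_isEmpty_descending_chain.2 ⟨fun ⟨f, hf⟩ => ?_⟩⟩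
    -- the chain, as elements of `F`, starting from index 1 (all nonzero, all in the maximal ideal)
    have hne : ∀ n, (f (n + 1) : F) ≠ 0 := fun n h =>
      (hf n).1 (Subtype.ext h)
    -- values are strictly increasing
    have hstep : ∀ n, O.valuation (f n : F) < O.valuation (f (n + 1) : F) ∨ f n = 0 := by
      intro n
      obtain ⟨hn0, y, hy, hfy⟩ := hf n
      by_cases h0' : f n = 0
      · exact Or.inr h0'
      left
      have hy' : O.valuation (y : F) < 1 :=
        (O.valuation_lt_one_iff y).1 ((IsLocalRing.mem_maximalIdeal y).2 hy)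
      have hpos : 0 < O.valuation (f (n + 1) : F) :=
        zero_lt_iff.2 ((Valuation.ne_zero_iff _).2 (hne n))
      have : (f n : F) = (f (n + 1) : F) * (y : F) := by rw [hfy]; rfl
      rw [this, map_mul]
      calc O.valuation (f (n + 1) : F) * O.valuation (y : F)
          < O.valuation (f (n + 1) : F) * 1 := mul_lt_mul_of_pos_left hy' hpos
        _ = O.valuation (f (n + 1) : F) := mul_one _
    set b : ℕ → F := fun n => (f (n + 1) : F) with hb
    have hbne : ∀ n, b n ≠ 0 := hne
    have hbstep : ∀ n, O.valuation (b n) < O.valuation (b (n + 1)) := by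
      intro n
      rcases hstep (n + 1) with h | h
      · exact h
      · exact absurd (by rw [h]; rfl) (hne n)
    have hbmono : StrictMono fun n => O.valuation (b n) := strictMono_nat_of_lt_succ hbstep
    have hblt : ∀ n, O.valuation (b n) < 1 := fun n =>
      lt_of_lt_of_le (hbstep n) ((O.valuation_le_one_iff _).2 (f (n + 1 + 1)).2)
    set x : F := b 0 with hx
    have hxlt : O.valuation x < 1 := hblt 0
    have hx0 : x ≠ 0 := hbne 0
    -- `x` is transcendental, so `F` is finite over `K(x)`
    have hxtr : Transcendental K x := by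
      intro halg
      obtain ⟨c, hc⟩ := h1 x halg
      have hc0 : c ≠ 0 := by rintro rfl; exact hx0 (by rw [hc, map_zero])
      rw [hc, l1_val_const O hK hc0] at hxlt
      exact lt_irrefl _ hxlt
    have : FiniteDimensional (IntermediateField.adjoin K {x}) F := h0 x hxtr
    -- but the `b n` are linearly independent over `K(x)`
    have hli : LinearIndependent (IntermediateField.adjoin K {x}) b := by
      rw [linearIndependent_iff']
      intro s g hsum i1 hi1
      by_contra hgi1
      classical
      set s' := s.filter fun i => g i ≠ 0 with hs'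
      have hs'ne : s'.Nonempty := ⟨i1, Finset.mem_filter.2 ⟨hi1, hgi1⟩⟩
      have hsum' : ∑ i ∈ s', (g i : F) * b i = 0 := by
        have : ∑ i ∈ s', g i • b i = ∑ i ∈ s, g i • b i := by
          apply Finset.sum_filter_of_ne
          intro i _ hi h
          apply hi
          rw [h, zero_smul]
        rw [← hsum, ← this]
        rfl
      obtain ⟨i0, hi0, hmax⟩ := Finset.exists_max_image s' (fun i => O.valuation ((g i : F) * b i)) hs'ne
      have hgne : ∀ i ∈ s', (g i : F) ≠ 0 := fun i hi h =>
        (Finset.mem_filter.1 hi).2 (Subtype.ext h)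
      have hdist : ∀ i ∈ s', ∀ j ∈ s', i < j →
          O.valuation ((g i : F) * b i) ≠ O.valuation ((g j : F) * b j) := by
        intro i hi j hj hij
        obtain ⟨a, c, hac⟩ := l1_val_adjoin O hK hxlt (g i).2 (hgne i hi)
        obtain ⟨a', c', hac'⟩ := l1_val_adjoin O hK hxlt (g j).2 (hgne j hj)
        rw [map_mul, map_mul]
        exact l1_key ((Valuation.ne_zero_iff _).2 hx0) (hbmono.monotone (Nat.zero_le i))
          (hbmono hij) (hblt j) hac hac'
      have hlt : ∀ j ∈ s'.erase i0,
          O.valuation ((g j : F) * b j) < O.valuation ((g i0 : F) * b i0) := by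
        intro j hj
        have hj' := Finset.mem_of_mem_erase hj
        have hji : j ≠ i0 := Finset.ne_of_mem_erase hj
        refine lt_of_le_of_ne (hmax j hj') ?_
        rcases lt_or_gt_of_ne hji with h | h
        · exact hdist j hj' i0 hi0 h
        · exact (hdist i0 hi0 j hj' h).symm
      have hne0 : O.valuation ((g i0 : F) * b i0) ≠ 0 :=
        (Valuation.ne_zero_iff _).2 (mul_ne_zero (hgne i0 hi0) (hbne i0))
      have hrest : O.valuation (∑ j ∈ s'.erase i0, (g j : F) * b j) <
          O.valuation ((g i0 : F) * b i0) := Valuation.map_sum_lt _ hne0 hlt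
      have hval : O.valuation ((g i0 : F) * b i0 + ∑ j ∈ s'.erase i0, (g j : F) * b j) =
          O.valuation ((g i0 : F) * b i0) := Valuation.map_add_eq_of_lt_left _ hrest
      have hsplit : (g i0 : F) * b i0 + ∑ j ∈ s'.erase i0, (g j : F) * b j =
          ∑ j ∈ s', (g j : F) * b j := Finset.add_sum_erase s' (fun j => (g j : F) * b j) hi0
      rw [hsplit, hsum', map_zero] at hval
      exact hne0 hval.symm
    exact Module.Finite.not_linearIndependent_of_infinite b hli
  exact ((IsBezout.TFAE (R := O)).out 3 1).1 hWf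

end Fermat.Agent.S26.CURVE
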