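import Fermat.Agent.S26.CURVE.Statements

/-! S26 / P12 CURVE leaf L2_Residue (helper9944): residue fields of places are `K`. -/

set_option autoImplicit false

namespace Fermat.Agent.S26.CURVE

open AlgebraicCurve

universe u v

variable {K : Type u} {F : Type v} [Field K] [Field F] [Algebra K F]

open Polynomial in
/-- A nonzero algebraic element of a domain is a root of a polynomial with nonzero constant
coefficient. -/
private theorem l2_exists_coeff_zero_ne {R A : Type*} [CommRing R] [CommRing A] [IsDomain A]
    [Algebra R A] {x : A} (hx0 : x ≠ 0) (hx : IsAlgebraic R x) :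
    ∃ q : R[X], q.coeff 0 ≠ 0 ∧ aeval x q = 0 := by
  obtain ⟨p, hp0, hp⟩ := hx
  obtain ⟨q, hq, hnd⟩ := exists_eq_pow_rootMultiplicity_mul_and_not_dvd p hp0 (0 : R)
  rw [C_0, sub_zero] at hq hnd
  refine ⟨q, fun h => hnd (X_dvd_iff.mpr h), ?_⟩
  rw [hq, map_mul, map_pow, aeval_X] at hp
  exact (mul_eq_zero.mp hp).resolve_left (pow_ne_zero _ hx0)

/-- Membership in the maximal ideal in terms of the adic valuation. -/
private theorem l2_adicValuation_lt_one_iff (v : Place K F) (a : v.toValuationSubring) :
    v.adicValuation (a : F) < 1 ↔ a ∈ IsLocalRing.maximalIdeal v.toValuationSubring := by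
  rw [v.adicValuation_coe, IsDedekindDomain.HeightOneSpectrum.intValuation_lt_one_iff_mem,
    Place.heightOneSpectrum_asIdeal]

open Polynomial in
/-- Polynomial expressions in an element of the valuation ring with coefficients in `K[f]`
stay in the valuation ring. -/
private theorem l2_aeval_mem (v : Place K F) {f x : F} (hf : f ∈ v.toValuationSubring)
    (hx : x ∈ v.toValuationSubring) (r : (Algebra.adjoin K {f})[X]) :
    aeval x r ∈ v.toValuationSubring := by
  have hle : Algebra.adjoin K {f} ≤
      ({ v.toValuationSubring.toSubring with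
          algebraMap_mem' := v.algebraMap_mem' } : Subalgebra K F) :=
    Algebra.adjoin_le (by
      intro y hy
      rw [Set.mem_singleton_iff] at hy
      subst hy
      exact hf)
  rw [aeval_eq_sum_range]
  refine sum_mem fun i _ => ?_
  rw [Algebra.smul_def]
  exact mul_mem (hle (r.coeff i).2) (pow_mem hx i)

open Polynomial in
/-- An element of the valuation ring whose value under a nonzero polynomial over `K` lies in the
maximal ideal is congruent to a constant. -/
private theorem l2_const_of_aeval [IsAlgClosed K] (v : Place K F) {f : F}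
    (hf : f ∈ v.toValuationSubring) (g : K[X]) (hg : g ≠ 0)
    (hlt : v.adicValuation (aeval f g) < 1) :
    ∃ c : K, v.adicValuation (f - algebraMap K F c) < 1 := by
  set fO : v.toValuationSubring := ⟨f, hf⟩ with hfO
  have hcoe : ((aeval fO g : v.toValuationSubring) : F) = aeval f g := by
    have h := aeval_algebraMap_apply (R := K) F fO g
    exact h.symm
  have hmem : aeval fO g ∈ IsLocalRing.maximalIdeal v.toValuationSubring := by
    rw [← l2_adicValuation_lt_one_iff, hcoe]
    exact hlt
  have hres : aeval (IsLocalRing.residue v.toValuationSubring fO) g = 0 := by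
    have h := aeval_algebraMap_apply (R := K) v.ResidueField fO g
    rw [IsLocalRing.ResidueField.algebraMap_eq] at h
    rw [h, IsLocalRing.residue_eq_zero_iff]
    exact hmem
  have halg : IsAlgebraic K (IsLocalRing.residue v.toValuationSubring fO) := ⟨g, hg, hres⟩
  have hdeg : (minpoly K (IsLocalRing.residue v.toValuationSubring fO)).degree = 1 :=
    IsAlgClosed.degree_eq_one_of_irreducible K (minpoly.irreducible halg.isIntegral)
  obtain ⟨c, hc⟩ := minpoly.mem_range_of_degree_eq_one K _ hdeg
  refine ⟨c, ?_⟩
  have hsub : fO - algebraMap K v.toValuationSubring c ∈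
      IsLocalRing.maximalIdeal v.toValuationSubring := by
    rw [← IsLocalRing.residue_eq_zero_iff, map_sub, sub_eq_zero]
    rw [← hc]
    have h2 : algebraMap K v.ResidueField c
        = IsLocalRing.residue v.toValuationSubring (algebraMap K v.toValuationSubring c) := by
      rw [IsScalarTower.algebraMap_apply K v.toValuationSubring v.ResidueField,
        IsLocalRing.ResidueField.algebraMap_eq]
    exact h2.symm
  have h3 := (l2_adicValuation_lt_one_iff v _).mpr hsub
  simpa [hfO] using h3

theorem residue [IsAlgClosed K] [IsFF1 K F] (h0 : StFiniteOver K F) (h1 : StConstants K F) :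
    StResidue K F := by
  intro v f hf
  by_cases hfa : IsAlgebraic K f
  · obtain ⟨c, rfl⟩ := h1 f hfa
    exact ⟨c, by simp⟩
  have hft : Transcendental K f := hfa
  have : FiniteDimensional (IntermediateField.adjoin K {f}) F := h0 f hft
  obtain ⟨π, hπ⟩ := IsDiscreteValuationRing.exists_irreducible v.toValuationSubring
  have hπ0 : (π : F) ≠ 0 := by
    simpa [ne_eq, ZeroMemClass.coe_eq_zero] using hπ.ne_zero
  have hπlt : v.adicValuation (π : F) < 1 := by
    rw [v.adicValuation_coe_irreducible hπ]
    exact WithZero.exp_lt_exp.mpr (by norm_num) |>.trans_eq WithZero.exp_zero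
  have hx : IsAlgebraic (IntermediateField.adjoin K {f}) (π : F) :=
    Algebra.IsAlgebraic.isAlgebraic _
  open IntermediateField.algebraAdjoinAdjoin in
  have hx' : IsAlgebraic (Algebra.adjoin K {f}) (π : F) :=
    (IsFractionRing.isAlgebraic_iff (Algebra.adjoin K {f}) (IntermediateField.adjoin K {f}) F).mpr
      hx
  obtain ⟨q, hq0, hq⟩ := l2_exists_coeff_zero_ne hπ0 hx'
  -- the constant coefficient lies in the maximal ideal
  have hdecomp : Polynomial.aeval (π : F) q.divX * (π : F) + ((q.coeff 0 : Algebra.adjoin K {f}) : F)
      = 0 := by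
    have h := congrArg (Polynomial.aeval (π : F)) (Polynomial.divX_mul_X_add q)
    rw [map_add, map_mul, Polynomial.aeval_X, Polynomial.aeval_C, hq] at h
    exact h
  have ha0 : v.adicValuation ((q.coeff 0 : Algebra.adjoin K {f}) : F) < 1 := by
    have h : ((q.coeff 0 : Algebra.adjoin K {f}) : F)
        = -(Polynomial.aeval (π : F) q.divX) * (π : F) := by
      linear_combination hdecomp
    rw [h, map_mul, Valuation.map_neg]
    have hle : v.adicValuation (Polynomial.aeval (π : F) q.divX) ≤ 1 := by
      have h := v.adicValuation_coe ⟨_, l2_aeval_mem v hf π.2 q.divX⟩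
      rw [h]
      exact (v.heightOneSpectrum).intValuation_le_one _
    calc v.adicValuation (Polynomial.aeval (π : F) q.divX) * v.adicValuation (π : F)
        ≤ 1 * v.adicValuation (π : F) := mul_le_mul' hle le_rfl
      _ = v.adicValuation (π : F) := one_mul _
      _ < 1 := hπlt
  -- write the constant coefficient as a polynomial in `f`
  have hmem : ((q.coeff 0 : Algebra.adjoin K {f}) : F) ∈ (Polynomial.aeval (R := K) f).range := by
    rw [← Algebra.adjoin_singleton_eq_range_aeval]
    exact (q.coeff 0).2
  obtain ⟨g, hg⟩ := hmem
  have hg0 : g ≠ 0 := by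
    rintro rfl
    apply hq0
    apply Subtype.ext
    rw [← hg]
    simp
  refine l2_const_of_aeval v hf g hg0 ?_
  have hg' : Polynomial.aeval f g = ((q.coeff 0 : Algebra.adjoin K {f}) : F) := hg
  rw [hg']
  exact ha0

theorem degOne [IsAlgClosed K] [IsFF1 K F] (hres : StResidue K F) : StDegOne K F := by
  intro v
  have hsurj : Function.Surjective (algebraMap K v.ResidueField) := by
    intro r
    obtain ⟨a, rfl⟩ := IsLocalRing.residue_surjective r
    obtain ⟨c, hc⟩ := hres v (a : F) a.2
    refine ⟨c, ?_⟩
    have hmem : a - algebraMap K v.toValuationSubring c ∈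
        IsLocalRing.maximalIdeal v.toValuationSubring := by
      rw [← l2_adicValuation_lt_one_iff]
      simpa using hc
    rw [← IsLocalRing.residue_eq_zero_iff, map_sub, sub_eq_zero] at hmem
    rw [hmem, IsScalarTower.algebraMap_apply K v.toValuationSubring v.ResidueField,
      IsLocalRing.ResidueField.algebraMap_eq]
  have hbij : Function.Bijective (algebraMap K v.ResidueField) :=
    ⟨(algebraMap K v.ResidueField).injective, hsurj⟩
  show Module.finrank K v.ResidueField = 1
  rw [← Module.finrank_self K]
  exact ((AlgEquiv.ofBijective (Algebra.ofId K v.ResidueField) hbij).toLinearEquiv.finrank_eq).symm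

end Fermat.Agent.S26.CURVE
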