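import Fermat.Agent.S26.CURVE.Statements

/-! S26 / P12 CURVE leaf L3_ExistsZero (helper3825): every transcendental element has a zero
(Chevalley: a valuation ring dominating `K[x]_(x)`, discrete by `StDiscrete`), and there are
infinitely many places (zeros of `x - c`, `c ∈ K`).  Helper lemmas are prefixed `l3_`. -/

set_option autoImplicit false

namespace Fermat.Agent.S26.CURVE

open AlgebraicCurve

universe u v

variable {K : Type u} {F : Type v} [Field K] [Field F] [Algebra K F]

/-- Nonzero constants are units of a valuation ring containing `K`. -/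
theorem l3_valuation_algebraMap_eq_one (O : ValuationSubring F)
    (hK : ∀ a : K, algebraMap K F a ∈ O) {a : K} (ha : a ≠ 0) :
    O.valuation (algebraMap K F a) = 1 := by
  have h1 : O.valuation (algebraMap K F a) ≤ 1 := (O.valuation_le_one_iff _).mpr (hK a)
  have h2 : O.valuation (algebraMap K F a⁻¹) ≤ 1 := (O.valuation_le_one_iff _).mpr (hK a⁻¹)
  have h3 : O.valuation (algebraMap K F a) * O.valuation (algebraMap K F a⁻¹) = 1 := by
    rw [← map_mul, ← map_mul, mul_inv_cancel₀ ha, map_one, map_one]
  refine le_antisymm h1 ?_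
  calc (1 : O.ValueGroup) = O.valuation (algebraMap K F a) * O.valuation (algebraMap K F a⁻¹) :=
        h3.symm
    _ ≤ O.valuation (algebraMap K F a) * 1 := mul_le_mul' le_rfl h2
    _ = O.valuation (algebraMap K F a) := mul_one _

theorem l3_ord_nonneg_of_mem (v : Place K F) {f : F} (hf : f ∈ v.toValuationSubring) :
    0 ≤ v.ord f := by
  rcases eq_or_ne f 0 with rfl | hf0
  · simp
  obtain ⟨π, hπ⟩ := IsDiscreteValuationRing.exists_irreducible v.toValuationSubring
  obtain ⟨n, u, hu⟩ :=
    IsDiscreteValuationRing.eq_unit_mul_pow_irreducible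
      (x := (⟨f, hf⟩ : v.toValuationSubring)) (by simpa [Subtype.ext_iff] using hf0) hπ
  have hcoe : f = ((u : v.toValuationSubring) : F) * ((π : F) ^ (n : ℤ)) := by
    have h := congrArg (Subtype.val) hu
    push_cast at h
    rw [zpow_natCast]
    exact h
  rw [hcoe, v.ord_unit_smul_zpow u hπ (n : ℤ)]
  exact Int.natCast_nonneg n

theorem l3_mem_of_ord_nonneg (v : Place K F) {f : F} (h : 0 ≤ v.ord f) :
    f ∈ v.toValuationSubring := by
  rcases eq_or_ne f 0 with rfl | hf
  · exact zero_mem _
  obtain ⟨π, hπ⟩ := IsDiscreteValuationRing.exists_irreducible v.toValuationSubring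
  obtain ⟨u, hu⟩ := v.exists_unit_mul_zpow hf hπ
  rw [hu, show v.ord f = (((v.ord f).toNat : ℕ) : ℤ) from (Int.toNat_of_nonneg h).symm,
    zpow_natCast]
  exact mul_mem (u : v.toValuationSubring).2 (pow_mem (π : v.toValuationSubring).2 _)

/-- `f ∈ 𝔪_v ↔ ord_v f > 0` (for `f ≠ 0`). -/
theorem l3_valuation_lt_one_iff_ord_pos (v : Place K F) {f : F} (hf : f ≠ 0) :
    v.toValuationSubring.valuation f < 1 ↔ 0 < v.ord f := by
  have hiff : f⁻¹ ∈ v.toValuationSubring ↔ 0 ≤ v.ord f⁻¹ :=
    ⟨l3_ord_nonneg_of_mem v, l3_mem_of_ord_nonneg v⟩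
  rw [← ValuationSubring.mem_nonunits_iff, ValuationSubring.mem_nonunits_iff_or,
    or_iff_right hf, hiff, v.ord_inv]
  omega

/-- Chevalley: a transcendental `z` is a nonunit of some valuation ring of `F` containing `K`. -/
theorem l3_exists_valuationSubring {z : F} (hz : Transcendental K z) :
    ∃ B : ValuationSubring F, (∀ a : K, algebraMap K F a ∈ B) ∧ B ≠ ⊤ ∧ z ∈ B.nonunits := by
  have hz0 : z ≠ 0 := by
    rintro rfl
    exact hz isAlgebraic_zero
  set A : Subalgebra K F := Algebra.adjoin K {z} with hA
  have hzA : z ∈ A.toSubring := Algebra.subset_adjoin (Set.mem_singleton z)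
  set I : Ideal A.toSubring := Ideal.span {⟨z, hzA⟩} with hI
  have hItop : I ≠ ⊤ := by
    intro h
    rw [Ideal.eq_top_iff_one, hI, Ideal.mem_span_singleton'] at h
    obtain ⟨⟨a, haA⟩, ha⟩ := h
    have ha' : a * z = 1 := congrArg Subtype.val ha
    have haA' : a ∈ Algebra.adjoin K {z} := haA
    rw [Algebra.adjoin_singleton_eq_range_aeval] at haA'
    obtain ⟨q, rfl⟩ := haA'
    apply hz
    refine ⟨q * Polynomial.X - 1, ?_, ?_⟩
    · intro h0
      have := congrArg (fun p : Polynomial K => p.coeff 0) h0
      simp at this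
    · rw [map_sub, map_mul, Polynomial.aeval_X, map_one, sub_eq_zero]
      exact ha'
  obtain ⟨B, hAB, hIB⟩ := Ideal.image_subset_nonunits_valuationSubring I hItop
  have hzB : z ∈ B.nonunits := hIB ⟨⟨z, hzA⟩, Ideal.subset_span rfl, rfl⟩
  refine ⟨B, fun a => hAB (A.algebraMap_mem a), ?_, hzB⟩
  rintro rfl
  rw [ValuationSubring.mem_nonunits_iff_or] at hzB
  exact hzB.elim hz0 fun h => h (ValuationSubring.mem_top _)

set_option linter.unusedVariables false in
theorem existsZero [IsAlgClosed K] [IsFF1 K F] (h0 : StFiniteOver K F) (h1 : StConstants K F)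
    (hd : StDiscrete K F) : StExistsZero K F := by
  intro x hx
  have hx0 : x ≠ 0 := by
    rintro rfl
    exact hx isAlgebraic_zero
  obtain ⟨B, hKB, hBtop, hxB⟩ := l3_exists_valuationSubring hx
  refine ⟨⟨B, hKB, hBtop, hd B hKB hBtop⟩, ?_⟩
  rw [← l3_valuation_lt_one_iff_ord_pos _ hx0]
  exact hxB

theorem infinitePlaces [IsAlgClosed K] [IsFF1 K F] (hz : StExistsZero K F) :
    StInfinitePlaces K F := by
  obtain ⟨x, hx, -⟩ := IsFF1.exists_finite (K := K) (F := F)
  have htr : ∀ c : K, Transcendental K (x - algebraMap K F c) := by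
    intro c halg
    apply hx
    have := halg.add (isAlgebraic_algebraMap (R := K) (A := F) c)
    rwa [sub_add_cancel] at this
  have hne : ∀ c : K, x - algebraMap K F c ≠ 0 := by
    intro c h
    apply htr c
    rw [h]
    exact isAlgebraic_zero
  choose w hw using fun c : K => hz (x - algebraMap K F c) (htr c)
  have hinj : Function.Injective w := by
    intro c c' hcc
    by_contra hne'
    have h1 : (w c).toValuationSubring.valuation (x - algebraMap K F c) < 1 :=
      (l3_valuation_lt_one_iff_ord_pos _ (hne c)).mpr (hw c)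
    have h2 : (w c).toValuationSubring.valuation (x - algebraMap K F c') < 1 := by
      rw [hcc]
      exact (l3_valuation_lt_one_iff_ord_pos _ (hne c')).mpr (hw c')
    have h3 : (w c).toValuationSubring.valuation (algebraMap K F (c' - c)) = 1 :=
      l3_valuation_algebraMap_eq_one _ (w c).algebraMap_mem' (sub_ne_zero.mpr (Ne.symm hne'))
    have h4 : algebraMap K F (c' - c) = (x - algebraMap K F c) - (x - algebraMap K F c') := by
      rw [map_sub]
      ring
    rw [h4] at h3
    have h5 := Valuation.map_sub (w c).toValuationSubring.valuation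
      (x - algebraMap K F c) (x - algebraMap K F c')
    rw [h3] at h5
    exact absurd h5 (not_le.mpr (max_lt h1 h2))
  exact Infinite.of_injective w hinj

end Fermat.Agent.S26.CURVE
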