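import Fermat.Agent.S26.CURVE.Statements
import Fermat.Agent.S24.A564.SumOrd

/-! S26 / P12 CURVE leaf L4_ZeroDegreeSep (helper1756).

Zeros of a SEPARATING element `x` of a function field `F/K` (`K` algebraically closed): finitely
many, and the multiplicities add up to `[F : K(x)]`.

Proof: `B` = integral closure of `R = K[x]` in `F` is a Dedekind domain, finite over `R`
(`F / K(x)` finite separable); `Ideal.sum_ramification_inertia` for the maximal ideal `(x)` of `R`;
the places `v` with `ord_v x > 0` are exactly the primes of `B` over `(x)`, `ord_v x` is the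
ramification index and the inertia degrees are `1` (`K` algebraically closed).
The dictionary lemmas are the landed char-free ones of `Fermat/Agent/S24/A564/{PlaceBasic,Classify,
SumOrd}.lean`; only the final count is redone here with the separability hypothesis instead of
`CharZero`. -/

set_option autoImplicit false

namespace Fermat.Agent.S26.CURVE

open AlgebraicCurve

universe u v

variable {K : Type u} {F : Type v} [Field K] [Field F] [Algebra K F]

section L4

open IsDedekindDomain WithZero IntermediateField Fermat.Agent.S24.A564.SO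
open scoped IntermediateField.algebraAdjoinAdjoin

/-- Zeros of a separating element: the char-free version of
`Fermat.Agent.S24.A564.SO.exists_finset_zeros_sum_ord`. -/
theorem l4_exists_finset_zeros_sum_ord [IsAlgClosed K] (s : F) (hs : Transcendental K s)
    [FiniteDimensional K⟮s⟯ F] [Algebra.IsSeparable K⟮s⟯ F] :
    ∃ S : Finset (Place K F), (∀ v, v ∈ S ↔ 0 < v.ord s) ∧
      ∑ v ∈ S, v.ord s = (Module.finrank K⟮s⟯ F : ℤ) := by
  classical
  let R := Algebra.adjoin K {s}
  let B := integralClosure R F
  haveI : IsPrincipalIdealRing R := adjoin_isPrincipalIdealRing s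
  haveI : IsDedekindDomain B := IsIntegralClosure.isDedekindDomain R K⟮s⟯ F B
  haveI : IsFractionRing B F := IsIntegralClosure.isFractionRing_of_finite_extension R K⟮s⟯ F B
  haveI : Module.Finite R B := IsIntegralClosure.finite R K⟮s⟯ F B
  let sR : R := ⟨s, Algebra.self_mem_adjoin_singleton K s⟩
  let p : Ideal R := Ideal.span {sR}
  haveI hpmax : p.IsMaximal := adjoin_span_isMaximal s hs
  have hs0 : s ≠ 0 := by
    rintro rfl
    exact hs (isAlgebraic_zero)
  have hsR0 : sR ≠ 0 := fun h => hs0 (congrArg Subtype.val h)
  have hp0 : p ≠ ⊥ := by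
    rw [Ne, Ideal.span_singleton_eq_bot]
    exact hsR0
  have hsum := Ideal.sum_ramification_inertia B K⟮s⟯ F (p := p) hp0
  have hmemP : ∀ P ∈ IsDedekindDomain.primesOverFinset p B, P.IsPrime ∧ P.LiesOver p := fun P hP =>
    (IsDedekindDomain.mem_primesOverFinset_iff hp0 _).mp hP
  have hPne : ∀ P ∈ IsDedekindDomain.primesOverFinset p B, P ≠ ⊥ := fun P hP =>
    haveI := (hmemP P hP).2
    Ideal.ne_bot_of_liesOver_of_ne_bot hp0 P
  let Φ : {P // P ∈ IsDedekindDomain.primesOverFinset p B} → Place K F := fun P =>
    Place.ofHeightOneSpectrum (K := K) ⟨P.1, (hmemP P.1 P.2).1, hPne P.1 P.2⟩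
  have hsB : algebraMap R B sR ≠ 0 := by
    intro h
    exact hs0 (congrArg (algebraMap B F) h)
  have hsF : algebraMap B F (algebraMap R B sR) = s := rfl
  have hord : ∀ P : {P // P ∈ IsDedekindDomain.primesOverFinset p B},
      (Φ P).ord s = (p.ramificationIdx' P.1 : ℤ) := by
    intro P
    show (Place.ofHeightOneSpectrum (K := K) (F := F) _).ord s = _
    rw [Place_ofHeightOneSpectrum_ord]
    exact ramificationIdx'_eq_neg_log_valuation (F := F) sR ⟨P.1, (hmemP P.1 P.2).1, hPne P.1 P.2⟩ hsB
  have hinert : ∀ P ∈ IsDedekindDomain.primesOverFinset p B, p.inertiaDeg' P = 1 := fun P hP => by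
    haveI := (hmemP P hP).1
    haveI := (hmemP P hP).2
    exact inertiaDeg'_eq_one_of_isAlgClosed (K := K) p P (adjoin_exists_const_sub_mem s)
  have hΦinj : Function.Injective Φ := by
    intro P P' h
    have := Place_ofHeightOneSpectrum_injective (K := K) (F := F) h
    exact Subtype.ext (congrArg HeightOneSpectrum.asIdeal this)
  refine ⟨(IsDedekindDomain.primesOverFinset p B).attach.image Φ, ?_, ?_⟩
  · intro v
    constructor
    · intro hv
      obtain ⟨P, -, rfl⟩ := Finset.mem_image.mp hv
      rw [hord]
      have hne : p.ramificationIdx' P.1 ≠ 0 := by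
        haveI := (hmemP P.1 P.2).1
        haveI := (hmemP P.1 P.2).2
        exact Ideal.IsDedekindDomain.ramificationIdx'_ne_zero_of_liesOver P.1 hp0
      exact_mod_cast Nat.pos_of_ne_zero hne
    · intro hv
      have hsmem : s ∈ v.toValuationSubring := Place_mem_of_ord_nonneg v hv.le
      have hR : R ≤ Place_subalgebra v := Place_adjoin_le v hsmem
      have hB : ∀ b : B, algebraMap B F b ∈ v.toValuationSubring := fun b =>
        Place_mem_of_isIntegral v hR b.2
      obtain ⟨w, rfl⟩ := Place_exists_heightOneSpectrum_of_le v hB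
      have hsw : algebraMap R B sR ∈ w.asIdeal := by
        rw [← HeightOneSpectrum.valuation_lt_one_iff_mem (K := F)]
        show w.valuation F s < 1
        rw [Place_ofHeightOneSpectrum_ord] at hv
        have hne : w.valuation F s ≠ 0 := (Valuation.ne_zero_iff _).mpr hs0
        rw [← exp_log hne, ← exp_zero, exp_lt_exp]
        omega
      have hover : w.asIdeal.LiesOver p := by
        refine ⟨?_⟩
        refine Ideal.IsMaximal.eq_of_le hpmax ?_ ?_
        · exact (Ideal.IsPrime.under R w.asIdeal).ne_top
        · rw [Ideal.span_le, Set.singleton_subset_iff]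
          exact hsw
      have hmem : w.asIdeal ∈ IsDedekindDomain.primesOverFinset p B :=
        (IsDedekindDomain.mem_primesOverFinset_iff hp0 _).mpr ⟨w.isPrime, hover⟩
      exact Finset.mem_image.mpr ⟨⟨w.asIdeal, hmem⟩, Finset.mem_attach _ _, rfl⟩
  · rw [Finset.sum_image (fun x _ y _ h => hΦinj h)]
    have h1 : ∑ P ∈ (IsDedekindDomain.primesOverFinset p B).attach, (Φ P).ord s
        = ∑ P ∈ (IsDedekindDomain.primesOverFinset p B).attach,
            ((p.ramificationIdx' P.1 * p.inertiaDeg' P.1 : ℕ) : ℤ) :=
      Finset.sum_congr rfl fun P _ => by rw [hord, hinert P.1 P.2, mul_one]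
    rw [h1, Finset.sum_attach (IsDedekindDomain.primesOverFinset p B)
      (fun P => ((p.ramificationIdx' P * p.inertiaDeg' P : ℕ) : ℤ)), ← Nat.cast_sum, hsum]

end L4

theorem zeroDegreeSep [IsAlgClosed K] [IsFF1 K F] (h0 : StFiniteOver K F) (h1 : StConstants K F)
    (hd : StDiscrete K F) (hres : StResidue K F) (hdeg : StDegOne K F) : StZeroDegreeSep K F := by
  intro x hx hsep
  haveI : FiniteDimensional (IntermediateField.adjoin K {x}) F := h0 x hx
  haveI : Algebra.IsSeparable (IntermediateField.adjoin K {x}) F := hsep
  exact l4_exists_finset_zeros_sum_ord x hx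

end Fermat.Agent.S26.CURVE
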