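import Fermat.Agent.S26.CURVE.Statements

/-! S26 / P12 CURVE leaf L5_ZeroDegree (helper1763).

Zeros of an arbitrary transcendental `x`: finitely many, multiplicities add up to `[F : K(x)]`.
Characteristic `0`: every `x` is separating.  Characteristic `p`: `[F : F^p] = p` (transport of
degrees along Frobenius + `[K(y) : K(y^p)] = p` from the Lueroth file of Mathlib), hence an `x`
which is not a `p`-th power satisfies `F = F^(p^m)(x)` for all `m` and is separating; otherwise
`x = y^p`, `[F : K(x)] = p [F : K(y)]`, `ord_v x = p ord_v y`, and we induct on the degree. -/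

set_option autoImplicit false

namespace Fermat.Agent.S26.CURVE

open AlgebraicCurve

universe u v

variable {K : Type u} {F : Type v} [Field K] [Field F] [Algebra K F]

/-- `[K(y) : K(y^n)] = n` for transcendental `y`. -/
theorem l5_relfinrank_adjoin_pow {y : F} (hy : Transcendental K y) (n : ℕ) :
    (IntermediateField.adjoin K {y ^ n}).relfinrank (IntermediateField.adjoin K {y}) = n := by
  classical
  have hinj : Function.Injective (Polynomial.aeval (R := K) y) :=
    transcendental_iff_injective.mp hy
  let φ : RatFunc K →ₐ[K] F := RatFunc.liftAlgHom (Polynomial.aeval y)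
    (nonZeroDivisors_le_comap_nonZeroDivisors_of_injective _ hinj)
  have hφX : φ RatFunc.X = y := by
    simp [φ, RatFunc.liftAlgHom_apply]
  have h1 : (IntermediateField.adjoin K {(RatFunc.X : RatFunc K) ^ n}).map φ =
      IntermediateField.adjoin K {y ^ n} := by
    rw [IntermediateField.adjoin_map]; simp [hφX]
  have h2 : (⊤ : IntermediateField K (RatFunc K)).map φ = IntermediateField.adjoin K {y} := by
    rw [← RatFunc.adjoin_X, IntermediateField.adjoin_map]; simp [hφX]
  rw [← h1, ← h2, IntermediateField.relfinrank_map_map, IntermediateField.relfinrank_top_right,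
    RatFunc.finrank_eq_max_natDegree]
  have hX : (RatFunc.X : RatFunc K) ^ n = algebraMap (Polynomial K) (RatFunc K) (Polynomial.X ^ n) := by
    rw [map_pow, RatFunc.algebraMap_X]
  rw [hX, RatFunc.num_algebraMap, RatFunc.denom_algebraMap]
  simp

theorem l5_finrank_adjoin_pow {y : F} (hy : Transcendental K y) (n : ℕ) :
    Module.finrank (IntermediateField.adjoin K {y ^ n}) F =
      n * Module.finrank (IntermediateField.adjoin K {y}) F := by
  have hle : IntermediateField.adjoin K {y ^ n} ≤ IntermediateField.adjoin K {y} := by
    rw [IntermediateField.adjoin_simple_le_iff]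
    exact pow_mem (IntermediateField.mem_adjoin_simple_self K y) n
  rw [← IntermediateField.relfinrank_mul_finrank_top hle, l5_relfinrank_adjoin_pow hy n]

theorem l5_map_frobenius_adjoin (p : ℕ) [ExpChar K p] [ExpChar F p] [PerfectRing K p] (y : F) :
    (IntermediateField.adjoin K {y}).toSubfield.map (frobenius F p) =
      (IntermediateField.adjoin K {y ^ p}).toSubfield := by
  rw [IntermediateField.adjoin_toSubfield, IntermediateField.adjoin_toSubfield,
    RingHom.map_field_closure]
  congr 1
  rw [Set.image_union, Set.image_singleton]
  congr 1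
  ext z; constructor
  · rintro ⟨_, ⟨c, rfl⟩, rfl⟩
    exact ⟨frobenius K p c, by simp [frobenius_def]⟩
  · rintro ⟨c, rfl⟩
    obtain ⟨d, rfl⟩ := surjective_frobenius K p c
    exact ⟨algebraMap K F d, ⟨d, rfl⟩, by simp [frobenius_def]⟩

theorem l5_finrank_frobenius_range (p : ℕ) [ExpChar K p] [ExpChar F p]
    [PerfectRing K p] {y : F} (hy : Transcendental K y)
    [FiniteDimensional (IntermediateField.adjoin K {y}) F] :
    Module.finrank (frobenius F p).fieldRange F = p := by
  set A := (IntermediateField.adjoin K {y}).toSubfield with hA
  set A' := (IntermediateField.adjoin K {y ^ p}).toSubfield with hA'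
  set L := (frobenius F p).fieldRange with hL
  have hAA' : A.map (frobenius F p) = A' := l5_map_frobenius_adjoin p y
  have hLtop : (⊤ : Subfield F).map (frobenius F p) = L := by
    rw [hL, RingHom.fieldRange_eq_map]
  have hle : A' ≤ L := by
    rw [← hAA', ← hLtop]
    exact (Subfield.gc_map_comap (frobenius F p)).monotone_l le_top
  have h1 : A'.relfinrank L = A.relfinrank ⊤ := by
    rw [← hAA', ← hLtop, Subfield.relfinrank_map_map]
  have h2 : A'.relfinrank L * L.relfinrank ⊤ = A'.relfinrank ⊤ :=
    Subfield.relfinrank_mul_relfinrank hle le_top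
  rw [h1, Subfield.relfinrank_top_right, Subfield.relfinrank_top_right,
    Subfield.relfinrank_top_right] at h2
  have h3 : Module.finrank A' F = p * Module.finrank A F := l5_finrank_adjoin_pow hy p
  have h4 : 0 < Module.finrank A F := Module.finrank_pos (R := IntermediateField.adjoin K {y})
  rw [h3, mul_comm p] at h2
  exact Nat.eq_of_mul_eq_mul_left h4 h2



theorem l5_closure_eq_top (p : ℕ) [hp : Fact p.Prime] [ExpChar F p]
    (hrank : Module.finrank (frobenius F p).fieldRange F = p) {x : F}
    (hx : ∀ y : F, y ^ p ≠ x) :
    Subfield.closure (Set.range (fun a : F => a ^ p) ∪ {x}) = ⊤ := by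
  set L := (frobenius F p).fieldRange with hL
  have : IsSimpleOrder (IntermediateField L F) :=
    IntermediateField.isSimpleOrder_of_finrank_prime L F (hrank ▸ hp.out)
  rcases eq_bot_or_eq_top (IntermediateField.adjoin L {x}) with h | h
  · exfalso
    have hmem : x ∈ (⊥ : IntermediateField L F) :=
      h ▸ IntermediateField.mem_adjoin_simple_self L x
    rw [IntermediateField.mem_bot] at hmem
    obtain ⟨⟨_, y, rfl⟩, hy⟩ := hmem
    exact hx y hy
  · have h' := congrArg IntermediateField.toSubfield h
    rw [IntermediateField.adjoin_toSubfield] at h'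
    have hr : Set.range (algebraMap L F) = Set.range (fun a : F => a ^ p) := by
      ext z; constructor
      · rintro ⟨⟨_, y, rfl⟩, rfl⟩
        exact ⟨y, rfl⟩
      · rintro ⟨y, rfl⟩
        exact ⟨⟨frobenius F p y, y, rfl⟩, rfl⟩
    rw [hr] at h'
    rw [h']
    rfl

theorem l5_closure_iterate_eq_top (p : ℕ) [ExpChar F p] {x : F}
    (h1 : Subfield.closure (Set.range (fun a : F => a ^ p) ∪ {x}) = ⊤) (m : ℕ) :
    Subfield.closure (Set.range (fun a : F => a ^ p ^ m) ∪ {x}) = ⊤ := by
  induction m with
  | zero =>
    rw [eq_top_iff]
    intro a _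
    exact Subfield.subset_closure (Or.inl ⟨a, by simp⟩)
  | succ m ih =>
    set C := Subfield.closure (Set.range (fun a : F => a ^ p ^ (m + 1)) ∪ {x}) with hC
    have hxC : x ∈ C := Subfield.subset_closure (Or.inr rfl)
    have hmap : (Subfield.closure (Set.range (fun a : F => a ^ p ^ m) ∪ {x})).map (frobenius F p)
        ≤ C := by
      rw [RingHom.map_field_closure, Subfield.closure_le]
      rintro _ ⟨z, hz, rfl⟩
      rcases hz with ⟨a, rfl⟩ | hz
      · refine Subfield.subset_closure (Or.inl ⟨a, ?_⟩)
        simp [frobenius_def, pow_succ, pow_mul]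
      · rw [Set.mem_singleton_iff] at hz
        subst hz
        simpa [frobenius_def] using pow_mem hxC p
    rw [ih] at hmap
    rw [eq_top_iff, ← h1, Subfield.closure_le]
    rintro z (⟨a, rfl⟩ | hz)
    · exact hmap ⟨a, Subfield.mem_top a, by simp [frobenius_def]⟩
    · rw [Set.mem_singleton_iff] at hz
      subst hz
      exact hxC


theorem l5_isSeparable_of_forall_pow_ne (p : ℕ) [hp : Fact p.Prime] [ExpChar K p] [ExpChar F p]
    [PerfectRing K p] {x : F} (hx : Transcendental K x)
    [FiniteDimensional (IntermediateField.adjoin K {x}) F] (hxp : ∀ y : F, y ^ p ≠ x) :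
    Algebra.IsSeparable (IntermediateField.adjoin K {x}) F := by
  rw [← separableClosure.eq_top_iff]
  set E := IntermediateField.adjoin K {x} with hE
  set S := separableClosure E F with hS
  have : ExpChar E p := inferInstance
  have : ExpChar S p := inferInstance
  have hrank := l5_finrank_frobenius_range p hx
  have h1 := l5_closure_eq_top p hrank hxp
  have h2 := l5_closure_iterate_eq_top p h1 (IsPurelyInseparable.exponent S F)
  have h3 : Subfield.closure
      (Set.range (fun a : F => a ^ p ^ (IsPurelyInseparable.exponent S F)) ∪ {x}) ≤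
      S.toSubfield := by
    rw [Subfield.closure_le]
    rintro z (⟨a, rfl⟩ | hz)
    · obtain ⟨s, hs⟩ := IsPurelyInseparable.exponent_def' S p a
      change (s : F) = _ at hs
      change a ^ p ^ (IsPurelyInseparable.exponent S F) ∈ S.toSubfield
      rw [← hs]
      exact s.2
    · rw [Set.mem_singleton_iff] at hz
      subst hz
      exact S.algebraMap_mem ⟨z, IntermediateField.mem_adjoin_simple_self K z⟩
  rw [h2] at h3
  exact eq_top_iff.mpr fun a _ => h3 (Subfield.mem_top a)


theorem zeroDegree [IsAlgClosed K] [IsFF1 K F] (h0 : StFiniteOver K F) (h1 : StConstants K F)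
    (hd : StDiscrete K F) (hres : StResidue K F) (hdeg : StDegOne K F)
    (hsep : StZeroDegreeSep K F) : StZeroDegree K F := by
  rcases CharP.exists' K with hchar | ⟨p, hp, hcharp⟩
  · intro x hx
    have hfin := h0 x hx
    have : CharZero (IntermediateField.adjoin K {x}) :=
      charZero_of_injective_algebraMap (algebraMap K (IntermediateField.adjoin K {x})).injective
    exact hsep x hx inferInstance
  · have : CharP F p := charP_of_injective_algebraMap (algebraMap K F).injective p
    suffices H : ∀ n : ℕ, ∀ x : F, Transcendental K x →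
        Module.finrank (IntermediateField.adjoin K {x}) F = n →
        ∃ s : Finset (Place K F), (∀ v : Place K F, v ∈ s ↔ 0 < v.ord x) ∧
          ∑ v ∈ s, v.ord x = (Module.finrank (IntermediateField.adjoin K {x}) F : ℤ) from
      fun x hx => H _ x hx rfl
    intro n
    induction n using Nat.strong_induction_on with
    | _ n ih =>
      intro x hx hn
      have hfin := h0 x hx
      by_cases hs : Algebra.IsSeparable (IntermediateField.adjoin K {x}) F
      · exact hsep x hx hs
      · have hex : ∃ y : F, y ^ p = x := by
          by_contra hcon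
          exact hs (l5_isSeparable_of_forall_pow_ne p hx (not_exists.mp hcon))
        obtain ⟨y, rfl⟩ := hex
        have hy : Transcendental K y := fun h => hx (h.pow p)
        have hrk := l5_finrank_adjoin_pow hy p
        have hfin' := h0 y hy
        have hpos : 0 < Module.finrank (IntermediateField.adjoin K {y}) F := Module.finrank_pos
        have hlt : Module.finrank (IntermediateField.adjoin K {y}) F < n := by
          rw [← hn, hrk]
          have := hp.out.two_le
          nlinarith
        obtain ⟨s, hs1, hs2⟩ := ih _ hlt y hy rfl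
        have hord : ∀ v : Place K F, v.ord (y ^ p) = (p : ℤ) * v.ord y := by
          intro v
          rw [← zpow_natCast, v.ord_zpow]
        have hp0 : (0 : ℤ) < p := by exact_mod_cast hp.out.pos
        refine ⟨s, fun v => ?_, ?_⟩
        · rw [hs1 v, hord v]
          constructor
          · intro h; exact mul_pos hp0 h
          · intro h; exact (mul_pos_iff_of_pos_left hp0).mp h
        · rw [hrk, Nat.cast_mul, ← hs2, Finset.mul_sum]
          exact Finset.sum_congr rfl fun v _ => hord v

end Fermat.Agent.S26.CURVE
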