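import Fermat.Agent.S26.CURVE.Statements

/-! S26 / P12 CURVE leaf L6_Principal (helper1784): principal divisors exist and have degree `0`.

For `f` constant the divisor is `0`.  For `f` transcendental, `StZeroDegree` applied to `f` and to
`f⁻¹` gives the finite sets of zeros and of poles, with multiplicities adding up to
`[F : K(f)] = [F : K(f⁻¹)]`; all places have degree one. -/

set_option autoImplicit false

namespace Fermat.Agent.S26.CURVE

open AlgebraicCurve

universe u v

variable {K : Type u} {F : Type v} [Field K] [Field F] [Algebra K F]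

theorem l6_ord_nonneg_of_mem (v : Place K F) {f : F} (h : f ∈ v.toValuationSubring) :
    0 ≤ v.ord f := by
  rcases eq_or_ne f 0 with rfl | hf
  · simp
  have h1 : v.adicValuation f ≤ 1 := by
    have := v.adicValuation_coe ⟨f, h⟩
    rw [this]
    exact v.heightOneSpectrum.intValuation_le_one _
  have h2 : v.adicValuation f = WithZero.exp (-v.ord f) := by
    unfold Place.ord
    rw [neg_neg, WithZero.exp_log (v.adicValuation_ne_zero hf)]
  rw [h2, ← WithZero.exp_zero, WithZero.exp_le_exp] at h1
  omega

theorem l6_ord_algebraMap (v : Place K F) (c : K) : v.ord (algebraMap K F c) = 0 := by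
  rcases eq_or_ne c 0 with rfl | hc
  · simp
  have h1 := l6_ord_nonneg_of_mem v (v.algebraMap_mem' c)
  have h2 := l6_ord_nonneg_of_mem v (v.algebraMap_mem' c⁻¹)
  rw [map_inv₀, v.ord_inv] at h2
  omega

theorem l6_finrank_congr {E E' : IntermediateField K F} (h : E = E') :
    Module.finrank E F = Module.finrank E' F := by
  subst h
  rfl

theorem l6_adjoin_inv (f : F) :
    IntermediateField.adjoin K {f⁻¹} = IntermediateField.adjoin K {f} := by
  apply le_antisymm
  · rw [IntermediateField.adjoin_simple_le_iff]
    exact inv_mem (IntermediateField.mem_adjoin_simple_self K f)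
  · rw [IntermediateField.adjoin_simple_le_iff]
    have := inv_mem (IntermediateField.mem_adjoin_simple_self K f⁻¹)
    rwa [inv_inv] at this

theorem l6_transcendental_inv {f : F} (hf : Transcendental K f) : Transcendental K f⁻¹ := by
  intro h
  apply hf
  have := h.inv
  rwa [inv_inv] at this

theorem principal [IsAlgClosed K] [IsFF1 K F] (h1 : StConstants K F) (hdeg : StDegOne K F)
    (hz : StZeroDegree K F) : StPrincipal K F := by
  classical
  refine ⟨fun f hf0 => ?_⟩
  by_cases halg : IsAlgebraic K f
  · obtain ⟨c, rfl⟩ := h1 f halg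
    exact ⟨0, fun v => by rw [l6_ord_algebraMap]; rfl, map_zero _⟩
  · have htr : Transcendental K f := halg
    have htr' : Transcendental K f⁻¹ := l6_transcendental_inv htr
    obtain ⟨s, hs, hsum⟩ := hz f htr
    obtain ⟨t, ht, htsum⟩ := hz f⁻¹ htr'
    have hdisj : Disjoint s t := by
      rw [Finset.disjoint_left]
      intro v hv hv'
      have a := (hs v).mp hv
      have b := (ht v).mp hv'
      rw [v.ord_inv] at b
      omega
    have hsupp : ∀ v : Place K F, v.ord f ≠ 0 → v ∈ s ∪ t := by
      intro v hv
      rw [Finset.mem_union, hs, ht, v.ord_inv]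
      omega
    let D : Divisor K F := Finsupp.onFinset (s ∪ t) (fun v => v.ord f) hsupp
    have hD : ∀ v : Place K F, D v = v.ord f := fun v => rfl
    refine ⟨D, hD, ?_⟩
    have hdegD : Divisor.degree D = ∑ v ∈ s ∪ t, v.ord f := by
      have hsub : D.support ⊆ s ∪ t := Finsupp.support_onFinset_subset
      have : Divisor.degree D = D.sum fun v n => n * (v.deg : ℤ) := by
        simp [Divisor.degree, Finsupp.liftAddHom_apply]
      rw [this, Finsupp.sum_of_support_subset D hsub _ (fun v _ => by simp)]
      refine Finset.sum_congr rfl fun v _ => ?_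
      rw [hD v, hdeg v]
      simp
    rw [hdegD, Finset.sum_union hdisj, hsum]
    have htsum' : ∑ v ∈ t, v.ord f = -∑ v ∈ t, v.ord f⁻¹ := by
      rw [← Finset.sum_neg_distrib]
      refine Finset.sum_congr rfl fun v _ => ?_
      rw [v.ord_inv, neg_neg]
    rw [htsum', htsum, l6_finrank_congr (l6_adjoin_inv f)]
    ring

end Fermat.Agent.S26.CURVE
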