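import Fermat.Agent.S26.CURVE.Statements

/-! S26 / P12 CURVE leaf L7_Codim (helper7905): `dim L(A)/L(B) ≤ deg A - deg B` for `B ≤ A`
(Stichtenoth 1.4.8, one place at a time; residue fields are `K`, all places have degree one). -/

set_option autoImplicit false

namespace Fermat.Agent.S26.CURVE

open AlgebraicCurve

universe u v

variable {K : Type u} {F : Type v} [Field K] [Field F] [Algebra K F]

/-- An element of valuation `≤ 1` lies in the valuation ring of the place. -/
private theorem l7_mem_of_le_one (w : Place K F) {f : F} (h : w.adicValuation f ≤ 1) :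
    f ∈ w.toValuationSubring := by
  rcases eq_or_ne f 0 with rfl | hf
  · exact zero_mem _
  have hord : 0 ≤ w.ord f := by
    have h1 : WithZero.log (w.adicValuation f) ≤ 0 :=
      (WithZero.log_le_iff_le_exp (w.adicValuation_ne_zero hf)).mpr (by simpa using h)
    unfold Place.ord
    omega
  obtain ⟨π, hπ⟩ := IsDiscreteValuationRing.exists_irreducible w.toValuationSubring
  obtain ⟨u, hu⟩ := w.exists_unit_mul_zpow hf hπ
  rw [hu]
  obtain ⟨n, hn⟩ := Int.eq_ofNat_of_zero_le hord
  rw [hn, zpow_natCast]
  exact mul_mem (u : w.toValuationSubring).2 (pow_mem π.2 n)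

/-- Discreteness of the value group: `x < exp n` iff `x ≤ exp (n - 1)`. -/
private theorem l7_lt_exp_iff {x : WithZero (Multiplicative ℤ)} {n : ℤ} :
    x < WithZero.exp n ↔ x ≤ WithZero.exp (n - 1) := by
  have h := WithZero.lt_mul_exp_iff_le (x := x) (y := WithZero.exp (n - 1)) WithZero.exp_ne_zero
  rw [← WithZero.exp_add, sub_add_cancel] at h
  exact h

private theorem l7_mono {A B : Divisor K F} (h : B ≤ A) : LSpace K F B ≤ LSpace K F A :=
  fun _ hf w => (hf w).trans (WithZero.exp_le_exp.mpr (h w))

private theorem l7_degree_nonneg {D : Divisor K F} (hD : 0 ≤ D) : 0 ≤ Divisor.degree D := by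
  unfold Divisor.degree
  rw [Finsupp.liftAddHom_apply]
  exact Finsupp.sum_nonneg fun w _ => mul_nonneg (hD w) (Int.natCast_nonneg _)

/-- One place at a time: `L(A)` is spanned by `L(A - v)` and one further element. -/
private theorem l7_step (hres : StResidue K F) (A : Divisor K F) (v : Place K F) :
    ∃ f ∈ LSpace K F A,
      LSpace K F A ≤ LSpace K F (A - Finsupp.single v 1) ⊔ Submodule.span K {f} := by
  classical
  by_cases hle : LSpace K F A ≤ LSpace K F (A - Finsupp.single v 1)
  · exact ⟨0, zero_mem _, hle.trans le_sup_left⟩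
  · obtain ⟨f, hfA, hfA'⟩ := SetLike.not_le_iff_exists.mp hle
    refine ⟨f, hfA, ?_⟩
    have hw : ∀ w : Place K F, w ≠ v → (A - Finsupp.single v 1 : Divisor K F) w = A w := by
      intro w hwv
      simp [hwv.symm]
    have hv : (A - Finsupp.single v 1 : Divisor K F) v = A v - 1 := by simp
    have hfv : ¬ v.adicValuation f ≤ WithZero.exp (A v - 1) := by
      intro h
      apply hfA'
      intro w
      by_cases hwv : w = v
      · subst hwv
        rw [hv]
        exact h
      · rw [hw w hwv]
        exact hfA w
    have hf0 : f ≠ 0 := by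
      rintro rfl
      exact hfv (by simp)
    have hfval : v.adicValuation f = WithZero.exp (A v) := by
      refine le_antisymm (hfA v) ?_
      by_contra hlt
      rw [not_le] at hlt
      exact hfv (l7_lt_exp_iff.mp hlt)
    intro h hh
    have hq : v.adicValuation (h / f) ≤ 1 := by
      rw [map_div₀, hfval]
      exact div_le_one_of_le₀ (hh v) WithZero.exp_pos.le
    obtain ⟨c, hc⟩ := hres v (h / f) (l7_mem_of_le_one v hq)
    have hmem : h - c • f ∈ LSpace K F (A - Finsupp.single v 1) := by
      intro w
      by_cases hwv : w = v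
      · subst hwv
        rw [hv]
        have e : h - c • f = f * (h / f - algebraMap K F c) := by
          rw [Algebra.smul_def]
          field_simp
        rw [e, map_mul, hfval]
        apply l7_lt_exp_iff.mp
        calc WithZero.exp (A w) * w.adicValuation (h / f - algebraMap K F c)
            < WithZero.exp (A w) * 1 := by
              exact mul_lt_mul_of_pos_left hc WithZero.exp_pos
          _ = WithZero.exp (A w) := mul_one _
      · rw [hw w hwv]
        exact (LSpace K F A).sub_mem hh ((LSpace K F A).smul_mem c hfA) w
    have hsplit : h = (h - c • f) + c • f := by ring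
    rw [hsplit]
    exact Submodule.add_mem_sup hmem
      (Submodule.smul_mem _ c (Submodule.mem_span_singleton_self f))

/-- `L(A)` is spanned by `L(B)` and at most `deg A - deg B` further elements. -/
private theorem l7_span (hres : StResidue K F) (hdeg : StDegOne K F) :
    ∀ (n : ℕ) (A B : Divisor K F), B ≤ A → Divisor.degree A - Divisor.degree B ≤ n →
      ∃ s : Finset F, (s.card : ℤ) ≤ Divisor.degree A - Divisor.degree B ∧
        (s : Set F) ⊆ LSpace K F A ∧
        LSpace K F A ≤ LSpace K F B ⊔ Submodule.span K (s : Set F) := by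
  classical
  intro n
  induction n with
  | zero =>
    intro A B hBA hn
    by_cases hex : ∃ w, B w < A w
    · exfalso
      obtain ⟨w, hw⟩ := hex
      have h1 : B ≤ A - Finsupp.single w 1 := by
        intro x
        by_cases hx : x = w
        · subst hx
          simp only [Finsupp.coe_sub, Pi.sub_apply, Finsupp.single_eq_same]
          omega
        · have := hBA x
          simpa [Finsupp.single_apply, Ne.symm hx] using this
      have h2 := l7_degree_nonneg (sub_nonneg.mpr h1)
      rw [map_sub, map_sub, Divisor.degree_single, hdeg w] at h2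
      push_cast at hn h2
      omega
    · have hAB : A = B := by
        apply le_antisymm _ hBA
        intro w
        by_contra hlt
        exact hex ⟨w, not_le.mp hlt⟩
      subst hAB
      exact ⟨∅, by simp, by simp, by simp⟩
  | succ n ih =>
    intro A B hBA hn
    by_cases hex : ∃ w, B w < A w
    · obtain ⟨w, hw⟩ := hex
      have h1 : B ≤ A - Finsupp.single w 1 := by
        intro x
        by_cases hx : x = w
        · subst hx
          simp only [Finsupp.coe_sub, Pi.sub_apply, Finsupp.single_eq_same]
          omega
        · have := hBA x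
          simpa [Finsupp.single_apply, Ne.symm hx] using this
      have hdegA' : Divisor.degree (A - Finsupp.single w 1) = Divisor.degree A - 1 := by
        rw [map_sub, Divisor.degree_single, hdeg w]
        simp
      obtain ⟨s', hcard', hs'A, hle'⟩ := ih (A - Finsupp.single w 1) B h1 (by
        rw [hdegA']
        push_cast at hn
        omega)
      obtain ⟨f, hfA, hstep⟩ := l7_step hres A w
      have hmono : LSpace K F (A - Finsupp.single w 1) ≤ LSpace K F A := by
        apply l7_mono
        intro x
        by_cases hx : x = w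
        · subst hx
          simp
        · simp [Ne.symm hx]
      refine ⟨insert f s', ?_, ?_, ?_⟩
      · have hc := Finset.card_insert_le f s'
        rw [hdegA'] at hcard'
        have : ((insert f s').card : ℤ) ≤ (s'.card : ℤ) + 1 := by exact_mod_cast hc
        omega
      · intro x hx
        rw [Finset.coe_insert] at hx
        rcases hx with rfl | hx
        · exact hfA
        · exact hmono (hs'A hx)
      · refine hstep.trans ?_
        rw [Finset.coe_insert, Submodule.span_insert]
        refine sup_le (hle'.trans ?_) ?_
        · exact sup_le le_sup_left (le_sup_of_le_right le_sup_right)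
        · exact le_sup_of_le_right le_sup_left
    · have hAB : A = B := by
        apply le_antisymm _ hBA
        intro w
        by_contra hlt
        exact hex ⟨w, not_le.mp hlt⟩
      subst hAB
      exact ⟨∅, by simp, by simp, by simp⟩

/-- A submodule `U` spanned by `S` and finitely many elements has finite codimension over `S`. -/
private theorem l7_quot {V : Type v} [AddCommGroup V] [Module K V] (U S : Submodule K V)
    (s : Finset V) (hsU : (s : Set V) ⊆ U) (hle : U ≤ S ⊔ Submodule.span K (s : Set V)) :
    Module.Finite K (↥U ⧸ Submodule.comap U.subtype S) ∧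
      Module.finrank K (↥U ⧸ Submodule.comap U.subtype S) ≤ s.card := by
  classical
  let N : Submodule K ↥U := Submodule.comap U.subtype S
  let t : Finset (↥U ⧸ N) := s.attach.image (fun x => N.mkQ ⟨x.1, hsU x.2⟩)
  have hspan : Submodule.span K (s : Set V) ≤
      Submodule.map U.subtype (Submodule.comap N.mkQ (Submodule.span K (t : Set (↥U ⧸ N)))) := by
    rw [Submodule.span_le]
    intro x hx
    refine ⟨⟨x, hsU hx⟩, ?_, rfl⟩
    show N.mkQ ⟨x, hsU hx⟩ ∈ Submodule.span K (t : Set (↥U ⧸ N))
    apply Submodule.subset_span
    rw [Finset.mem_coe, Finset.mem_image]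
    exact ⟨⟨x, hx⟩, Finset.mem_attach _ _, rfl⟩
  have ht : Submodule.span K (t : Set (↥U ⧸ N)) = ⊤ := by
    rw [eq_top_iff]
    rintro q -
    obtain ⟨x, rfl⟩ := N.mkQ_surjective q
    obtain ⟨b, hb, y, hy, hxy⟩ := Submodule.mem_sup.mp (hle x.2)
    obtain ⟨y', hy', hy'y⟩ := hspan hy
    have hbU : b ∈ U := by
      have hbe : b = (x : V) - y := eq_sub_of_add_eq hxy
      rw [hbe, ← hy'y]
      exact U.sub_mem x.2 y'.2
    have hxeq : x = ⟨b, hbU⟩ + y' := by
      apply Subtype.ext
      rw [Submodule.coe_add]
      show (x : V) = b + U.subtype y'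
      rw [hy'y, hxy]
    have hbN : (⟨b, hbU⟩ : ↥U) ∈ N := hb
    have hb0 : N.mkQ ⟨b, hbU⟩ = 0 := by
      rw [Submodule.mkQ_apply, Submodule.Quotient.mk_eq_zero]
      exact hbN
    rw [hxeq, map_add, hb0, zero_add]
    exact hy'
  refine ⟨⟨⟨t, ht⟩⟩, ?_⟩
  have h1 : Module.finrank K (↥U ⧸ N) =
      Module.finrank K ↥(Submodule.span K (t : Set (↥U ⧸ N))) := by
    rw [ht, finrank_top]
  have h2 : Module.finrank K ↥(Submodule.span K (t : Set (↥U ⧸ N))) ≤ t.card :=
    finrank_span_finset_le_card (R := K) t
  have h3 : t.card ≤ s.card := Finset.card_image_le.trans (by rw [Finset.card_attach])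
  show Module.finrank K (↥U ⧸ N) ≤ s.card
  omega

theorem codim [IsAlgClosed K] [IsFF1 K F] (hres : StResidue K F) (hdeg : StDegOne K F) :
    StCodim K F := by
  classical
  intro A B hBA
  have hnn : 0 ≤ Divisor.degree A - Divisor.degree B := by
    have := l7_degree_nonneg (sub_nonneg.mpr hBA)
    rwa [map_sub] at this
  obtain ⟨s, hcard, hsA, hle⟩ :=
    l7_span hres hdeg (Divisor.degree A - Divisor.degree B).toNat A B hBA
      (by rw [Int.toNat_of_nonneg hnn])
  obtain ⟨hfin, hrank⟩ := l7_quot (LSpace K F A) (LSpace K F B) s hsA hle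
  refine ⟨hfin, le_trans ?_ hcard⟩
  exact_mod_cast hrank

end Fermat.Agent.S26.CURVE
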