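import Fermat.Agent.S26.CURVE.Statements

/-! S26 / P12 CURVE leaf L8_Small (helper5836): `small`, `finite`, `linEquiv`, `unique`. -/

set_option autoImplicit false

namespace Fermat.Agent.S26.CURVE

open AlgebraicCurve

universe u v

variable {K : Type u} {F : Type v} [Field K] [Field F] [Algebra K F]

/-! ### helper lemmas (prefix `l8_`) -/

theorem l8_adicValuation_eq_exp_neg_ord (v : Place K F) {f : F} (hf : f ≠ 0) :
    v.adicValuation f = WithZero.exp (-v.ord f) := by
  unfold Place.ord
  rw [neg_neg, WithZero.exp_log (v.adicValuation_ne_zero hf)]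

theorem l8_mem_LSpace_iff {D : Divisor K F} {f : F} :
    f ∈ LSpace K F D ↔ ∀ v : Place K F, f = 0 ∨ -D v ≤ v.ord f := by
  rw [mem_LSpace]
  refine forall_congr' fun v => ?_
  rcases eq_or_ne f 0 with rfl | hf
  · simp
  · rw [l8_adicValuation_eq_exp_neg_ord v hf, WithZero.exp_le_exp, neg_le, or_iff_right hf]

theorem l8_ord_algebraMap (v : Place K F) {c : K} (hc : c ≠ 0) :
    v.ord (algebraMap K F c) = 0 := by
  have hz : algebraMap K F c ≠ 0 := by simpa using hc
  have hz' : algebraMap K F c⁻¹ ≠ 0 := by simpa using hc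
  have h1 := adicValuation_algebraMap_le_one v c
  have h2 := adicValuation_algebraMap_le_one v c⁻¹
  rw [l8_adicValuation_eq_exp_neg_ord v hz, ← WithZero.exp_zero, WithZero.exp_le_exp] at h1
  rw [l8_adicValuation_eq_exp_neg_ord v hz', ← WithZero.exp_zero, WithZero.exp_le_exp,
    map_inv₀, v.ord_inv] at h2
  omega

theorem l8_degree_nonneg {D : Divisor K F} (hD : 0 ≤ D) : 0 ≤ Divisor.degree D := by
  have h : Divisor.degree D = D.sum fun v n => n * (v.deg : ℤ) := by
    simp [Divisor.degree, Finsupp.liftAddHom_apply]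
  rw [h]
  apply Finset.sum_nonneg
  intro v _
  have := Finsupp.le_def.mp hD v
  simp only [Finsupp.coe_zero, Pi.zero_apply] at this
  positivity

theorem l8_one_mem_LSpace {E : Divisor K F} (hE : 0 ≤ E) : (1 : F) ∈ LSpace K F E := by
  rw [l8_mem_LSpace_iff]
  intro v
  right
  have := Finsupp.le_def.mp hE v
  simp only [Finsupp.coe_zero, Pi.zero_apply] at this
  rw [Place.ord_one]
  linarith

theorem l8_LSpace_mono {A B : Divisor K F} (h : B ≤ A) : LSpace K F B ≤ LSpace K F A := by
  intro f hf
  rw [l8_mem_LSpace_iff] at hf ⊢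
  intro v
  rcases hf v with h0 | h1
  · exact Or.inl h0
  · exact Or.inr (le_trans (neg_le_neg (Finsupp.le_def.mp h v)) h1)

theorem l8_mem_LSpace_add_iff {D Df : Divisor K F} {z : F} (hz : z ≠ 0)
    (hD : ∀ v : Place K F, Df v = v.ord z) (f : F) :
    f ∈ LSpace K F (D + Df) ↔ z * f ∈ LSpace K F D := by
  rw [l8_mem_LSpace_iff, l8_mem_LSpace_iff]
  refine forall_congr' fun v => ?_
  rcases eq_or_ne f 0 with rfl | hf
  · simp
  · have hzf : z * f ≠ 0 := mul_ne_zero hz hf
    simp only [hf, hzf, false_or, Finsupp.add_apply, hD v, v.ord_mul hz hf]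
    constructor <;> intro h <;> linarith

/-- Multiplication by a nonzero element as a `K`-linear automorphism of `F`. -/
noncomputable def l8_mulEquiv (z : F) (hz : z ≠ 0) : F ≃ₗ[K] F where
  toFun f := z * f
  invFun f := z⁻¹ * f
  map_add' := mul_add z
  map_smul' c f := by simp
  left_inv f := by simp [← mul_assoc, inv_mul_cancel₀ hz]
  right_inv f := by simp [← mul_assoc, mul_inv_cancel₀ hz]

/-! ### the leaf theorems -/

theorem small [IsAlgClosed K] [IsFF1 K F] (h1 : StConstants K F) (hdeg : StDegOne K F)
    (hzero : StExistsZero K F) (hp : StPrincipal K F) : StSmall K F := by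
  refine ⟨fun D hD => ?_, ?_⟩
  · rw [eq_bot_iff]
    intro f hf
    by_contra hf0
    have hf0' : f ≠ 0 := by simpa using hf0
    obtain ⟨Df, hDf, hDf0⟩ := hp.exists_divisor f hf0'
    have hnn : (0 : Divisor K F) ≤ D + Df := by
      rw [Finsupp.le_def]
      intro v
      have := ((l8_mem_LSpace_iff.mp hf) v).resolve_left hf0'
      simp only [Finsupp.coe_zero, Pi.zero_apply, Finsupp.coe_add, Pi.add_apply, hDf v]
      linarith
    have := l8_degree_nonneg hnn
    rw [map_add, hDf0, add_zero] at this
    linarith
  · refine le_antisymm ?_ ?_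
    · intro f hf
      by_cases hf0 : f = 0
      · rw [hf0]; exact Submodule.zero_mem _
      have halg : IsAlgebraic K f := by
        by_contra htr
        have htr' : Transcendental K f⁻¹ := by
          intro halg
          exact htr (by simpa using halg.inv)
        obtain ⟨v, hv⟩ := hzero f⁻¹ htr'
        have := ((l8_mem_LSpace_iff.mp hf) v).resolve_left hf0
        rw [v.ord_inv] at hv
        simp only [Finsupp.coe_zero, Pi.zero_apply, neg_zero] at this
        linarith
      obtain ⟨c, rfl⟩ := h1 f halg
      rw [Submodule.mem_span_singleton]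
      exact ⟨c, by rw [Algebra.smul_def, mul_one]⟩
    · rw [Submodule.span_singleton_le_iff_mem]
      exact l8_one_mem_LSpace le_rfl

theorem finite [IsAlgClosed K] [IsFF1 K F] (hdeg : StDegOne K F) (hp : StPrincipal K F)
    (hc : StCodim K F) (hs : StSmall K F) : StFinite K F := by
  classical
  -- a divisor below `D` with trivial `L`
  have key : ∀ D : Divisor K F, 0 ≤ Divisor.degree D →
      Module.Finite K (LSpace K F D) ∧ (ell K F D : ℤ) ≤ Divisor.degree D + 1 := by
    intro D hD
    by_cases hne : Nonempty (Place K F)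
    · obtain ⟨v₀⟩ := hne
      set m : ℤ := Divisor.degree D + 1 with hm
      set B : Divisor K F := D - Finsupp.single v₀ m with hB
      have hBD : B ≤ D := by
        rw [Finsupp.le_def]
        intro v
        simp only [hB, Finsupp.coe_sub, Pi.sub_apply, Finsupp.single_apply]
        split_ifs <;> omega
      have hdegB : Divisor.degree B = Divisor.degree D - m := by
        rw [hB, map_sub, Divisor.degree_single, hdeg v₀]
        simp
      have hLB : LSpace K F B = ⊥ := hs.1 B (by rw [hdegB, hm]; linarith)
      obtain ⟨hfin, hle⟩ := hc D B hBD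
      have hcomap : Submodule.comap (LSpace K F D).subtype (LSpace K F B) = ⊥ := by
        rw [hLB]
        exact Submodule.comap_bot _ |>.trans (by simp)
      rw [hcomap] at hfin hle
      let e := Submodule.quotEquivOfEqBot (⊥ : Submodule K (LSpace K F D)) rfl
      have hfinD : Module.Finite K (LSpace K F D) := Module.Finite.equiv e
      refine ⟨hfinD, ?_⟩
      have : Module.finrank K (↥(LSpace K F D) ⧸ (⊥ : Submodule K (LSpace K F D)))
          = ell K F D := e.finrank_eq
      rw [this, hdegB] at hle
      linarith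
    · have hsub : Subsingleton (Divisor K F) := by
        have : IsEmpty (Place K F) := not_nonempty_iff.mp hne
        infer_instance
      have hD0 : D = 0 := Subsingleton.elim _ _
      subst hD0
      have hspan : LSpace K F 0 = Submodule.span K {(1 : F)} := hs.2
      refine ⟨?_, ?_⟩
      · rw [hspan]; infer_instance
      · unfold ell
        rw [hspan, finrank_span_singleton one_ne_zero]
        simp
  have hfin : ∀ D : Divisor K F, Module.Finite K (LSpace K F D) := by
    intro D
    by_cases hD : 0 ≤ Divisor.degree D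
    · exact (key D hD).1
    · rw [hs.1 D (not_le.mp hD)]
      infer_instance
  refine ⟨hfin, fun D hD => (key D hD).2, fun A B hBA => ?_⟩
  obtain ⟨hfinq, hle⟩ := hc A B hBA
  have := hfin A
  have h1 := Submodule.finrank_quotient_add_finrank
    (Submodule.comap (LSpace K F A).subtype (LSpace K F B))
  have h2 : Module.finrank K (Submodule.comap (LSpace K F A).subtype (LSpace K F B))
      = ell K F B :=
    (Submodule.comapSubtypeEquivOfLe (l8_LSpace_mono hBA)).finrank_eq
  unfold ell at h2 ⊢
  have h3 : (Module.finrank K (LSpace K F A) : ℤ)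
      = Module.finrank K (↥(LSpace K F A) ⧸
          Submodule.comap (LSpace K F A).subtype (LSpace K F B))
        + Module.finrank K (LSpace K F B) := by
    rw [← h2]
    exact_mod_cast h1.symm
  linarith

theorem linEquiv : StLinEquiv K F := by
  intro D Df f hf hDf
  have hmap : (LSpace K F (D + Df)).map ((l8_mulEquiv (K := K) f hf : F ≃ₗ[K] F) : F →ₗ[K] F)
      = LSpace K F D := by
    ext g
    constructor
    · rintro ⟨g', hg', rfl⟩
      exact (l8_mem_LSpace_add_iff hf hDf g').mp hg'
    · intro hg
      refine ⟨f⁻¹ * g, (l8_mem_LSpace_add_iff hf hDf _).mpr ?_, ?_⟩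
      · rwa [← mul_assoc, mul_inv_cancel₀ hf, one_mul]
      · show f * (f⁻¹ * g) = g
        rw [← mul_assoc, mul_inv_cancel₀ hf, one_mul]
  unfold ell
  rw [← hmap]
  exact (LinearEquiv.finrank_map_eq (l8_mulEquiv (K := K) f hf) _).symm

theorem unique [IsAlgClosed K] [IsFF1 K F] (hs : StSmall K F) (hf : StFinite K F) :
    StUnique K F := by
  intro E E' Df f hE1 hE0 hE'0 hf0 hDf hE'
  -- `f ∈ L(E)`
  have hfE : f ∈ LSpace K F E := by
    rw [l8_mem_LSpace_iff]
    intro v
    right
    have := Finsupp.le_def.mp hE'0 v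
    rw [hE'] at this
    simp only [Finsupp.coe_zero, Pi.zero_apply, Finsupp.coe_add, Pi.add_apply, hDf v] at this
    linarith
  -- `L(E)` is spanned by `1`
  have h1E : (1 : F) ∈ LSpace K F E := l8_one_mem_LSpace hE0
  have hne : (⟨1, h1E⟩ : LSpace K F E) ≠ 0 := by
    intro h
    have := congrArg Subtype.val h
    simp at this
  obtain ⟨c, hc⟩ := (finrank_eq_one_iff_of_nonzero' (⟨1, h1E⟩ : LSpace K F E) hne).mp hE1
    ⟨f, hfE⟩
  have hcf : f = algebraMap K F c := by
    have := congrArg Subtype.val hc
    simp only [Submodule.coe_smul] at this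
    rw [← this, Algebra.smul_def, mul_one]
  have hc0 : c ≠ 0 := by
    rintro rfl
    rw [map_zero] at hcf
    exact hf0 hcf
  have hDf0 : Df = 0 := by
    ext v
    rw [hDf v, hcf, l8_ord_algebraMap v hc0]
    rfl
  rw [hE', hDf0, add_zero]

end Fermat.Agent.S26.CURVE
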