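import Fermat.Agent.S26.CURVE.Statements

/-! S26 / P12 CURVE leaf L9_RiemannIneq (helper2783): Riemann's inequality with some constant.

Proof (Stichtenoth 1.4.14-1.4.17).  `x` transcendental with `n = [F : K(x)]`, `B` = pole divisor of
`x` (degree `n`), `u_1..u_n` a basis of `F / K(x)`, `C ≥ 0` with `u_i ∈ L(C)`.  The elements
`x^j u_i` (`j ≤ r`) are `K`-independent in `L(rB + C)`, so `ℓ(rB) ≥ n(r+1) - deg C`, i.e.
`deg(rB) ≤ ℓ(rB) + M` with `M = deg C - n`.  For arbitrary `A` take `A₁ = A⁺`, `0 ≠ z ∈ L(lB - A₁)`
(`l` large), `D = A₁ - div z ≤ lB`; then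
`deg A - ℓ(A) ≤ deg A₁ - ℓ(A₁) = deg D - ℓ(D) ≤ deg(lB) - ℓ(lB) ≤ M`. -/

set_option autoImplicit false

namespace Fermat.Agent.S26.CURVE

open AlgebraicCurve

universe u v

variable {K : Type u} {F : Type v} [Field K] [Field F] [Algebra K F]

/-- Membership in `L(D)` for a nonzero function, in terms of `ord`. -/
theorem l9_mem_LSpace_iff {D : Divisor K F} {f : F} (hf : f ≠ 0) :
    f ∈ LSpace K F D ↔ ∀ v : Place K F, -(D v) ≤ v.ord f := by
  rw [mem_LSpace]
  refine forall_congr' fun v => ?_
  have hne : v.adicValuation f ≠ 0 := v.adicValuation_ne_zero hf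
  have h1 : v.adicValuation f = WithZero.exp (-(v.ord f)) := by
    rw [Place.ord, neg_neg, WithZero.exp_log hne]
  rw [h1, WithZero.exp_le_exp]
  constructor <;> intro h <;> linarith

theorem l9_ord_pow (v : Place K F) (x : F) (j : ℕ) : v.ord (x ^ j) = j * v.ord x := by
  have h := v.ord_zpow x (j : ℤ)
  rwa [zpow_natCast] at h

/-- The powers `1, x, …, x^r` of a transcendental element are `K`-linearly independent
(as elements of `K(x)`). -/
theorem l9_linearIndependent_pow {x : F} (hx : Transcendental K x) (r : ℕ) :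
    LinearIndependent K
      (fun j : Fin (r + 1) => (IntermediateField.AdjoinSimple.gen K x) ^ (j : ℕ)) := by
  apply LinearIndependent.of_comp (IntermediateField.val (IntermediateField.adjoin K {x})).toLinearMap
  have h1 : LinearIndependent K (fun j : Fin (r + 1) => (Polynomial.monomial (j : ℕ) (1 : K))) := by
    have h := (Polynomial.basisMonomials K).linearIndependent.comp
      (fun j : Fin (r + 1) => (j : ℕ)) Fin.val_injective
    rwa [Polynomial.coe_basisMonomials] at h
  have h2 := h1.map' (Polynomial.aeval x).toLinearMap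
    (LinearMap.ker_eq_bot.mpr (transcendental_iff_injective.mp hx))
  have h3 : (⇑(IntermediateField.val (IntermediateField.adjoin K {x})).toLinearMap ∘
      fun j : Fin (r + 1) => (IntermediateField.AdjoinSimple.gen K x) ^ (j : ℕ)) =
      (⇑(Polynomial.aeval x).toLinearMap ∘
        fun j : Fin (r + 1) => (Polynomial.monomial (j : ℕ) (1 : K))) := by
    funext j
    simp [IntermediateField.AdjoinSimple.coe_gen]
  rw [h3]
  exact h2

theorem riemannIneq [IsAlgClosed K] [IsFF1 K F] (h0 : StFiniteOver K F) (h1 : StConstants K F)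
    (hdeg : StDegOne K F) (hzero : StExistsZero K F) (hz : StZeroDegree K F)
    (hp : StPrincipal K F) (hc : StCodim K F) (hs : StSmall K F) (hf : StFinite K F)
    (hl : StLinEquiv K F) : StRiemannIneq K F := by
  classical
  obtain ⟨x, hx, hfin⟩ := IsFF1.exists_finite (K := K) (F := F)
  have := hfin
  have hnpos : 0 < Module.finrank (IntermediateField.adjoin K {x}) F := Module.finrank_pos
  have hx0 : x ≠ 0 := by
    rintro rfl
    exact hx isAlgebraic_zero
  obtain ⟨Dx, hDx, hDxdeg⟩ := hp.exists_divisor x hx0
  obtain ⟨s, hs_mem, hs_sum⟩ := hz x hx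
  -- the zero divisor `P` of `x` and the pole divisor `B = P - div x`
  let P : Divisor K F := ∑ w ∈ s, Finsupp.single w (w.ord x)
  have hPapply : ∀ v : Place K F, P v = if v ∈ s then v.ord x else 0 := by
    intro v
    simp only [P, Finsupp.finset_sum_apply, Finsupp.single_apply]
    rw [Finset.sum_ite_eq' s v]
  have hPdeg : Divisor.degree P = (Module.finrank (IntermediateField.adjoin K {x}) F : ℤ) := by
    simp only [P, map_sum, Divisor.degree_single]
    rw [← hs_sum]
    refine Finset.sum_congr rfl fun w _ => ?_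
    rw [hdeg w, Nat.cast_one, mul_one]
  let B : Divisor K F := P - Dx
  have hBdeg : Divisor.degree B = (Module.finrank (IntermediateField.adjoin K {x}) F : ℤ) := by
    simp only [B, map_sub, hPdeg, hDxdeg, sub_zero]
  have hBapply : ∀ v : Place K F, B v = P v - v.ord x := by
    intro v
    simp only [B, Finsupp.coe_sub, Pi.sub_apply, hDx]
  have hP0 : ∀ v : Place K F, 0 ≤ P v ∧ v.ord x ≤ P v := by
    intro v
    rw [hPapply]
    split_ifs with h
    · have := (hs_mem v).mp h
      omega
    · have : ¬ 0 < v.ord x := fun h' => h ((hs_mem v).mpr h')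
      omega
  have hB0 : ∀ v : Place K F, 0 ≤ B v := by
    intro v
    rw [hBapply]
    have := (hP0 v).2
    omega
  have hBx : ∀ v : Place K F, -(B v) ≤ v.ord x := by
    intro v
    rw [hBapply]
    have := (hP0 v).1
    omega
  -- a basis of `F / K(x)` and a divisor `C ≥ 0` with `u_i ∈ L(C)`
  let b := Module.finBasis (IntermediateField.adjoin K {x}) F
  choose Du hDu _hDudeg using fun i => hp.exists_divisor (b i) (b.ne_zero i)
  let N : Fin (Module.finrank (IntermediateField.adjoin K {x}) F) → Divisor K F :=
    fun i => (Du i).mapRange (fun m : ℤ => max (-m) 0) (by simp)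
  let C : Divisor K F := ∑ i, N i
  have hN0 : ∀ i (v : Place K F), 0 ≤ N i v := by
    intro i v
    simp only [N, Finsupp.mapRange_apply]
    exact le_max_right _ _
  have hNu : ∀ i (v : Place K F), -(N i v) ≤ v.ord (b i) := by
    intro i v
    simp only [N, Finsupp.mapRange_apply, hDu]
    have := le_max_left (-(v.ord (b i))) 0
    linarith
  have hC0 : ∀ v : Place K F, 0 ≤ C v := by
    intro v
    simp only [C, Finsupp.finset_sum_apply]
    exact Finset.sum_nonneg fun i _ => hN0 i v
  have hCu : ∀ i (v : Place K F), -(C v) ≤ v.ord (b i) := by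
    intro i v
    have h1 : N i v ≤ C v := by
      simp only [C, Finsupp.finset_sum_apply]
      exact Finset.single_le_sum (f := fun i => N i v) (fun j _ => hN0 j v) (Finset.mem_univ i)
    have := hNu i v
    linarith
  -- Step 2: `n (r+1) ≤ ℓ(rB + C)`
  have step2 : ∀ r : ℕ,
      Module.finrank (IntermediateField.adjoin K {x}) F * (r + 1) ≤ ell K F (r • B + C) := by
    intro r
    have : Module.Finite K (LSpace K F (r • B + C)) := hf.1 _
    have hb := l9_linearIndependent_pow (K := K) hx r
    have hc' : LinearIndependent (IntermediateField.adjoin K {x}) (fun i => b i) :=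
      b.linearIndependent
    have hprod := linearIndependent_smul hb hc'
    have hmem : ∀ p : Fin (r + 1) × Fin (Module.finrank (IntermediateField.adjoin K {x}) F),
        ((IntermediateField.AdjoinSimple.gen K x) ^ (p.1 : ℕ)) • b p.2 ∈
          LSpace K F (r • B + C) := by
      intro p
      have e : ((IntermediateField.AdjoinSimple.gen K x) ^ (p.1 : ℕ)) • b p.2 =
          x ^ (p.1 : ℕ) * b p.2 := by
        rw [Algebra.smul_def]
        simp [IntermediateField.AdjoinSimple.coe_gen]
      rw [e, l9_mem_LSpace_iff (mul_ne_zero (pow_ne_zero _ hx0) (b.ne_zero _))]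
      intro v
      rw [v.ord_mul (pow_ne_zero _ hx0) (b.ne_zero _), l9_ord_pow]
      simp only [Finsupp.add_apply, Finsupp.smul_apply, nsmul_eq_mul]
      have hj : ((p.1 : ℕ) : ℤ) ≤ r := by exact_mod_cast Nat.lt_succ_iff.mp p.1.2
      have h3 := hBx v
      have h4 := hB0 v
      have h5 := hCu p.2 v
      have e1 : 0 ≤ (v.ord x + B v) * ((p.1 : ℕ) : ℤ) :=
        mul_nonneg (by linarith) (Int.natCast_nonneg _)
      have e2 : 0 ≤ ((r : ℤ) - ((p.1 : ℕ) : ℤ)) * B v := mul_nonneg (by linarith) h4
      nlinarith [e1, e2]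
    let fam : Fin (r + 1) × Fin (Module.finrank (IntermediateField.adjoin K {x}) F) →
        LSpace K F (r • B + C) := fun p => ⟨_, hmem p⟩
    have hfam : LinearIndependent K fam := by
      apply LinearIndependent.of_comp (LSpace K F (r • B + C)).subtype
      exact hprod
    have hcard := hfam.fintype_card_le_finrank
    simp only [Fintype.card_prod, Fintype.card_fin] at hcard
    show _ ≤ Module.finrank K (LSpace K F (r • B + C))
    rw [mul_comm]
    exact hcard
  -- Step 3: `deg(rB) ≤ ℓ(rB) + M`
  have hdegsmul : ∀ r : ℕ, Divisor.degree (r • B) =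
      (r : ℤ) * (Module.finrank (IntermediateField.adjoin K {x}) F : ℤ) := by
    intro r
    rw [map_nsmul, hBdeg, nsmul_eq_mul]
  have step3 : ∀ r : ℕ, Divisor.degree (r • B) ≤ (ell K F (r • B) : ℤ) +
      (Divisor.degree C - (Module.finrank (IntermediateField.adjoin K {x}) F : ℤ)) := by
    intro r
    have hle : r • B ≤ r • B + C := by
      intro v
      simp only [Finsupp.coe_add, Pi.add_apply]
      have := hC0 v
      linarith
    have h3 := hf.2.2 (r • B + C) (r • B) hle
    have h2 : ((Module.finrank (IntermediateField.adjoin K {x}) F * (r + 1) : ℕ) : ℤ) ≤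
        (ell K F (r • B + C) : ℤ) := by exact_mod_cast step2 r
    push_cast at h2
    rw [map_add] at h3
    rw [hdegsmul r]
    linarith
  -- Step 4: arbitrary divisors
  refine ⟨(Divisor.degree C - (Module.finrank (IntermediateField.adjoin K {x}) F : ℤ) + 1).toNat,
    fun A => ?_⟩
  have hγ := Int.self_le_toNat
    (Divisor.degree C - (Module.finrank (IntermediateField.adjoin K {x}) F : ℤ) + 1)
  let A1 : Divisor K F := A.mapRange (fun m : ℤ => max m 0) (by simp)
  have hA1 : A ≤ A1 := by
    intro v
    simp only [A1, Finsupp.mapRange_apply]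
    exact le_max_left _ _
  have hA10 : ∀ v : Place K F, 0 ≤ A1 v := by
    intro v
    simp only [A1, Finsupp.mapRange_apply]
    exact le_max_right _ _
  let l : ℕ := (Divisor.degree C - (Module.finrank (IntermediateField.adjoin K {x}) F : ℤ) +
    Divisor.degree A1 + 1).toNat
  have hl1 := Int.self_le_toNat
    (Divisor.degree C - (Module.finrank (IntermediateField.adjoin K {x}) F : ℤ) +
      Divisor.degree A1 + 1)
  have hln : (l : ℤ) ≤ (l : ℤ) * (Module.finrank (IntermediateField.adjoin K {x}) F : ℤ) := by
    have h6 : (1 : ℤ) ≤ (Module.finrank (IntermediateField.adjoin K {x}) F : ℤ) := by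
      exact_mod_cast hnpos
    nlinarith [Int.natCast_nonneg l]
  have hle2 : l • B - A1 ≤ l • B := by
    intro v
    simp only [Finsupp.coe_sub, Pi.sub_apply]
    have := hA10 v
    linarith
  have h4 := hf.2.2 (l • B) (l • B - A1) hle2
  rw [map_sub] at h4
  have h5 := step3 l
  have hdegl := hdegsmul l
  have hpos : 0 < ell K F (l • B - A1) := by
    have h7 : (0 : ℤ) < (ell K F (l • B - A1) : ℤ) := by
      change (l : ℤ) ≥ _ at hl1
      linarith
    exact_mod_cast h7
  have : Module.Finite K (LSpace K F (l • B - A1)) := hf.1 _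
  obtain ⟨z, hz0⟩ := Module.finrank_pos_iff_exists_ne_zero.mp hpos
  have hzF : (z : F) ≠ 0 := fun h => hz0 (Subtype.ext h)
  have hzmem := (l9_mem_LSpace_iff hzF).mp z.2
  obtain ⟨Dz, hDz, hDzdeg⟩ := hp.exists_divisor (z : F) hzF
  let D : Divisor K F := A1 - Dz
  have hDle : D ≤ l • B := by
    intro v
    have h8 := hzmem v
    simp only [Finsupp.sub_apply, Finsupp.smul_apply, nsmul_eq_mul, D, hDz] at h8 ⊢
    linarith
  have e1 := hf.2.2 A1 A hA1
  have e2 : ell K F A1 = ell K F D := by
    have h9 := hl D Dz (z : F) hzF hDz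
    rwa [show D + Dz = A1 from sub_add_cancel A1 Dz] at h9
  have e3 : Divisor.degree D = Divisor.degree A1 := by
    simp only [D, map_sub, hDzdeg, sub_zero]
  have e4 := hf.2.2 (l • B) D hDle
  rw [e2] at e1
  linarith

end Fermat.Agent.S26.CURVE
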