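import Fermat.Agent.S26.CURVE.L0_FiniteOver
import Fermat.Agent.S26.CURVE.L1_Discrete
import Fermat.Agent.S26.CURVE.L2_Residue
import Fermat.Agent.S26.CURVE.L3_ExistsZero
import Fermat.Agent.S26.CURVE.L4_ZeroDegreeSep
import Fermat.Agent.S26.CURVE.L5_ZeroDegree
import Fermat.Agent.S26.CURVE.L6_Principal
import Fermat.Agent.S26.CURVE.L7_Codim
import Fermat.Agent.S26.CURVE.L8_Small
import Fermat.Agent.S26.CURVE.L9_RiemannIneq
import Fermat.Agent.S26.CURVE.L10_Riemann
import Fermat.Agent.S26.CURVE.L11_NonSpecial

/-! S26 / P12 CURVE : assembly of the algebraic core (function fields in one variable over an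
algebraically closed field).  Everything here is proved from the leaves. -/

set_option autoImplicit false

namespace Fermat.Agent.S26.CURVE

open AlgebraicCurve

universe u v

variable (K : Type u) (F : Type v) [Field K] [Field F] [Algebra K F]

/-- All statements of the algebraic core of P12. -/
structure Core : Prop where
  finiteOver : StFiniteOver K F
  constants : StConstants K F
  discrete : StDiscrete K F
  residue : StResidue K F
  degOne : StDegOne K F
  existsZero : StExistsZero K F
  infinitePlaces : StInfinitePlaces K F
  zeroDegree : StZeroDegree K F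
  principal : StPrincipal K F
  codim : StCodim K F
  small : StSmall K F
  finite : StFinite K F
  linEquiv : StLinEquiv K F
  unique : StUnique K F
  riemann : StRiemann K F
  nonSpecial : StNonSpecial K F

theorem core [IsAlgClosed K] [IsFF1 K F] : Core K F := by
  have h0 : StFiniteOver K F := finiteOver
  have h1 : StConstants K F := constants
  have hd : StDiscrete K F := discrete h0 h1
  have hres : StResidue K F := residue h0 h1
  have hdeg : StDegOne K F := degOne hres
  have hzero : StExistsZero K F := existsZero h0 h1 hd
  have hi : StInfinitePlaces K F := infinitePlaces hzero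
  have hsep : StZeroDegreeSep K F := zeroDegreeSep h0 h1 hd hres hdeg
  have hz : StZeroDegree K F := zeroDegree h0 h1 hd hres hdeg hsep
  have hp : StPrincipal K F := principal h1 hdeg hz
  have hc : StCodim K F := codim hres hdeg
  have hs : StSmall K F := small h1 hdeg hzero hp
  have hf : StFinite K F := finite hdeg hp hc hs
  have hl : StLinEquiv K F := linEquiv
  have hu : StUnique K F := unique hs hf
  have hri : StRiemannIneq K F := riemannIneq h0 h1 hdeg hzero hz hp hc hs hf hl
  have hr : StRiemann K F := riemann hdeg hp hc hs hf hl hri
  have hn : StNonSpecial K F := nonSpecial hdeg hi hp hc hs hf hl hr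
  exact ⟨h0, h1, hd, hres, hdeg, hzero, hi, hz, hp, hc, hs, hf, hl, hu, hr, hn⟩

end Fermat.Agent.S26.CURVE
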