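import Fermat.Agent.S26.CURVE.Basic

/-!
# S26 / package P12 CURVE : frozen leaf statements (sub-lead helper736)

Every leaf `Lk` of the package proves ONE of the propositions below, in its own file
`Fermat/Agent/S26/CURVE/Lk_<name>.lean`, as a theorem

  `theorem <name> [IsAlgClosed K] [IsFF1 K F] (h.. : prerequisite statements) : St<Name> K F`

(prerequisites are passed as explicit hypotheses, so every leaf file is free of `sorry` and the
leaves are independent).  The assembly file chains them.
Standing assumptions: `K` algebraically closed (any characteristic), `[IsFF1 K F]`.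
-/

set_option autoImplicit false

namespace Fermat.Agent.S26.CURVE

open AlgebraicCurve

universe u v

variable (K : Type u) (F : Type v) [Field K] [Field F] [Algebra K F]

/-- L0: `F` is finite over `K(y)` for EVERY transcendental `y`. -/
def StFiniteOver : Prop :=
  ∀ y : F, Transcendental K y → FiniteDimensional (IntermediateField.adjoin K {y}) F

/-- L1: `K` is algebraically closed in `F`: every element of `F` algebraic over `K` is a constant. -/
def StConstants : Prop :=
  ∀ f : F, IsAlgebraic K f → ∃ c : K, f = algebraMap K F c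

/-- L2: residue fields of places are `K`: every element of the valuation ring is congruent to a
constant modulo the maximal ideal. -/
def StResidue : Prop :=
  ∀ (v : Place K F) (f : F), f ∈ v.toValuationSubring →
    ∃ c : K, v.adicValuation (f - algebraMap K F c) < 1

/-- L2': all places have degree one. -/
def StDegOne : Prop := ∀ v : Place K F, v.deg = 1

/-- L3: every nontrivial valuation ring of `F/K` is discrete (so it is a `Place`). -/
def StDiscrete : Prop :=
  ∀ O : ValuationSubring F, (∀ a : K, algebraMap K F a ∈ O) → O ≠ ⊤ → IsPrincipalIdealRing O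

/-- L4: every transcendental element has a zero. -/
def StExistsZero : Prop :=
  ∀ x : F, Transcendental K x → ∃ v : Place K F, 0 < v.ord x

/-- L4': there are infinitely many places. -/
def StInfinitePlaces : Prop := Infinite (Place K F)

/-- L5: zeros of a SEPARATING element `x`: finitely many, and their multiplicities add up to
`[F : K(x)]`. -/
def StZeroDegreeSep : Prop :=
  ∀ x : F, Transcendental K x → Algebra.IsSeparable (IntermediateField.adjoin K {x}) F →
    ∃ s : Finset (Place K F), (∀ v : Place K F, v ∈ s ↔ 0 < v.ord x) ∧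
      ∑ v ∈ s, v.ord x = (Module.finrank (IntermediateField.adjoin K {x}) F : ℤ)

/-- L6: the same for every transcendental element. -/
def StZeroDegree : Prop :=
  ∀ x : F, Transcendental K x →
    ∃ s : Finset (Place K F), (∀ v : Place K F, v ∈ s ↔ 0 < v.ord x) ∧
      ∑ v ∈ s, v.ord x = (Module.finrank (IntermediateField.adjoin K {x}) F : ℤ)

/-- L7: principal divisors exist and have degree `0` (the prelude class). -/
def StPrincipal : Prop := HasPrincipalDivisors K F

/-- L8: `L(B) ⊆ L(A)` has codimension at most `deg A - deg B` for `B ≤ A`. -/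
def StCodim : Prop :=
  ∀ A B : Divisor K F, B ≤ A →
    Module.Finite K (↥(LSpace K F A) ⧸ Submodule.comap (LSpace K F A).subtype (LSpace K F B)) ∧
    (Module.finrank K
      (↥(LSpace K F A) ⧸ Submodule.comap (LSpace K F A).subtype (LSpace K F B)) : ℤ) ≤
        Divisor.degree A - Divisor.degree B

/-- L9: `L(D) = 0` for `deg D < 0`, and `L(0) = K`. -/
def StSmall : Prop :=
  (∀ D : Divisor K F, Divisor.degree D < 0 → LSpace K F D = ⊥) ∧
    LSpace K F 0 = Submodule.span K {(1 : F)}

/-- L10: all `L(D)` are finite-dimensional, `ℓ(D) ≤ deg D + 1` for `deg D ≥ 0`, and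
`ℓ(A) ≤ ℓ(B) + deg A - deg B` for `B ≤ A`. -/
def StFinite : Prop :=
  (∀ D : Divisor K F, Module.Finite K (LSpace K F D)) ∧
  (∀ D : Divisor K F, 0 ≤ Divisor.degree D → (ell K F D : ℤ) ≤ Divisor.degree D + 1) ∧
  (∀ A B : Divisor K F, B ≤ A →
    (ell K F A : ℤ) ≤ ell K F B + (Divisor.degree A - Divisor.degree B))

/-- L11: linear equivalence does not change `ℓ`. -/
def StLinEquiv : Prop :=
  ∀ (D Df : Divisor K F) (f : F), f ≠ 0 → (∀ v : Place K F, Df v = v.ord f) →
    ell K F (D + Df) = ell K F D

/-- L12: Riemann's inequality with some constant. -/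
def StRiemannIneq : Prop :=
  ∃ γ : ℕ, ∀ D : Divisor K F, Divisor.degree D + 1 ≤ (ell K F D : ℤ) + γ

/-- The Riemann genus: the least constant in Riemann's inequality (junk `0` if there is none). -/
noncomputable def riemannGenus : ℕ :=
  sInf {γ : ℕ | ∀ D : Divisor K F, Divisor.degree D + 1 ≤ (ell K F D : ℤ) + γ}

/-- L13: Riemann's theorem for the genus `riemannGenus`. -/
def StRiemann : Prop :=
  (∀ D : Divisor K F, Divisor.degree D + 1 ≤ (ell K F D : ℤ) + riemannGenus K F) ∧
  ∃ c : ℤ, ∀ D : Divisor K F, c ≤ Divisor.degree D →
    Divisor.degree D + 1 = (ell K F D : ℤ) + riemannGenus K F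

/-- L14: a non-special effective divisor of degree `γ`: `E ≥ 0`, `deg E = γ`, `ℓ(E) = 1`. -/
def StNonSpecial : Prop :=
  ∃ E : Divisor K F, 0 ≤ E ∧ Divisor.degree E = riemannGenus K F ∧ ell K F E = 1

/-- L15: uniqueness in the linear system of a divisor with `ℓ = 1`: an effective divisor linearly
equivalent to `E` equals `E`. -/
def StUnique : Prop :=
  ∀ (E E' Df : Divisor K F) (f : F), ell K F E = 1 → 0 ≤ E → 0 ≤ E' → f ≠ 0 →
    (∀ v : Place K F, Df v = v.ord f) → E' = E + Df → E' = E

end Fermat.Agent.S26.CURVE
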